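/-
Programme TW (S56), brick D3 (helper21): generic lemmas on 1-cocycles of a finite group `Γ` with
values in a `k`-module `M` (explicit cocycle form, action given by `π : Γ →* (M →ₗ[k] M)`):
* a cocycle whose restriction to a subgroup `H` of index invertible in `k` is a coboundary is a
  coboundary (`coboundary_of_subgroup`), in particular every cocycle is a coboundary when `|Γ|`
  is invertible in `k` (`coboundary_of_card`);
* a cocycle vanishing on a normal subgroup `N` takes values in the `N`-invariants
  (`invariant_of_vanish_normal`), and the restriction of a cocycle to a central subgroup acting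
  trivially is a homomorphism into the `Γ`-invariants (`central_values_invariant`).
Mathlib only.
-/
import Mathlib

namespace Fermat.Agent.TW.GrpH1.Cocycle

variable {Γ k M : Type*} [Group Γ] [Field k] [AddCommGroup M] [Module k M]

/-- explicit 1-cocycle condition -/
def IsCoc (π : Γ →* (M →ₗ[k] M)) (c : Γ → M) : Prop :=
  ∀ g h : Γ, c (g * h) = c g + π g (c h)

/-- explicit 1-coboundary condition -/
def IsCob (π : Γ →* (M →ₗ[k] M)) (c : Γ → M) : Prop :=
  ∃ m : M, ∀ g : Γ, c g = π g m - m

lemma IsCoc.map_one {π : Γ →* (M →ₗ[k] M)} {c : Γ → M} (hc : IsCoc π c) : c 1 = 0 := by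
  have h := hc 1 1
  rw [mul_one, _root_.map_one, Module.End.one_apply] at h
  exact add_eq_left.1 h.symm

/-- subtracting a coboundary from a cocycle gives a cocycle -/
lemma IsCoc.sub_cob {π : Γ →* (M →ₗ[k] M)} {c : Γ → M} (hc : IsCoc π c) (m : M) :
    IsCoc π (fun g => c g - (π g m - m)) := by
  intro g h
  simp only
  rw [hc g h, map_mul, Module.End.mul_apply, map_sub, map_sub]
  abel

/-- A cocycle which vanishes on a subgroup `H` whose index is invertible in `k` is a
coboundary. -/
theorem coboundary_of_vanish_subgroup [Finite Γ] (π : Γ →* (M →ₗ[k] M)) (H : Subgroup Γ)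
    (hidx : ((H.index : ℕ) : k) ≠ 0) (c : Γ → M) (hc : IsCoc π c) (hH : ∀ h ∈ H, c h = 0) :
    IsCob π c := by
  classical
  have : Fintype (Γ ⧸ H) := Fintype.ofFinite _
  -- `c` is constant on left cosets
  have hconst : ∀ g : Γ, ∀ h ∈ H, c (g * h) = c g := by
    intro g h hh
    rw [hc g h, hH h hh, map_zero, add_zero]
  let f : Γ ⧸ H → M := fun x => Quotient.liftOn' x c (by
    intro a b hab
    rw [QuotientGroup.leftRel_apply] at hab
    have := hconst a _ hab
    rw [mul_inv_cancel_left] at this
    exact this.symm)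
  have hf : ∀ g : Γ, f (QuotientGroup.mk g) = c g := fun g => rfl
  have hfsmul : ∀ (g : Γ) (x : Γ ⧸ H), f (g • x) = c g + π g (f x) := by
    intro g x
    induction x using QuotientGroup.induction_on with
    | H a =>
      have : g • (QuotientGroup.mk a : Γ ⧸ H) = QuotientGroup.mk (g * a) := rfl
      rw [this, hf, hf, hc]
  have hcard : (Fintype.card (Γ ⧸ H) : k) ≠ 0 := by
    have : Fintype.card (Γ ⧸ H) = H.index := by
      rw [Subgroup.index, Nat.card_eq_fintype_card]
    rw [this]
    exact hidx
  set n : k := (Fintype.card (Γ ⧸ H) : k) with hn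
  set s : M := ∑ x : Γ ⧸ H, f x with hs
  refine ⟨-(n⁻¹ • s), fun g => ?_⟩
  have h1 : ∑ x : Γ ⧸ H, f (g • x) = s := by
    rw [hs]
    exact Fintype.sum_equiv (MulAction.toPerm g) _ _ (fun x => rfl)
  have h2 : ∑ x : Γ ⧸ H, f (g • x) = n • c g + π g s := by
    simp only [hfsmul]
    rw [Finset.sum_add_distrib, Finset.sum_const, Finset.card_univ, hs, map_sum, hn,
      Nat.cast_smul_eq_nsmul]
  have h3 : π g s = s - n • c g := by
    rw [h1] at h2
    rw [eq_sub_iff_add_eq, add_comm]
    exact h2.symm
  rw [map_neg, map_smul, h3, smul_sub, smul_smul, inv_mul_cancel₀ hcard, one_smul]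
  abel

/-- A cocycle whose restriction to a subgroup `H` of index invertible in `k` is a coboundary is a
coboundary. -/
theorem coboundary_of_subgroup [Finite Γ] (π : Γ →* (M →ₗ[k] M)) (H : Subgroup Γ)
    (hidx : ((H.index : ℕ) : k) ≠ 0) (c : Γ → M) (hc : IsCoc π c)
    (hH : ∃ m₀ : M, ∀ h ∈ H, c h = π h m₀ - m₀) : IsCob π c := by
  obtain ⟨m₀, hm₀⟩ := hH
  obtain ⟨m, hm⟩ := coboundary_of_vanish_subgroup π H hidx _ (hc.sub_cob m₀)
    (fun h hh => by simp only [hm₀ h hh, sub_self])
  refine ⟨m + m₀, fun g => ?_⟩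
  have := hm g
  simp only at this
  rw [map_add]
  rw [sub_eq_iff_eq_add] at this
  rw [this]
  abel

/-- If `|Γ|` is invertible in `k`, every cocycle is a coboundary. -/
theorem coboundary_of_card [Finite Γ] (π : Γ →* (M →ₗ[k] M))
    (hcard : ((Nat.card Γ : ℕ) : k) ≠ 0) (c : Γ → M) (hc : IsCoc π c) : IsCob π c := by
  refine coboundary_of_vanish_subgroup π ⊥ ?_ c hc ?_
  · rwa [Subgroup.index_bot]
  · intro h hh
    rw [Subgroup.mem_bot] at hh
    rw [hh, hc.map_one]

/-- A cocycle vanishing on a normal subgroup `N` takes values in the `N`-invariants. -/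
theorem invariant_of_vanish_normal (π : Γ →* (M →ₗ[k] M)) (N : Subgroup Γ) [N.Normal]
    (c : Γ → M) (hc : IsCoc π c) (hN : ∀ n ∈ N, c n = 0) (g : Γ) (n : Γ) (hn : n ∈ N) :
    π n (c g) = c g := by
  have h1 : c (n * g) = π n (c g) := by rw [hc, hN n hn, zero_add]
  have h2 : n * g = g * (g⁻¹ * n * g) := by group
  have h3 : g⁻¹ * n * g ∈ N := by
    have := Subgroup.Normal.conj_mem ‹N.Normal› n hn g⁻¹
    rwa [inv_inv] at this
  rw [← h1, h2, hc, hN _ h3, map_zero, add_zero]

/-- The values of a cocycle on central elements acting trivially are `Γ`-invariant. -/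
theorem central_values_invariant (π : Γ →* (M →ₗ[k] M)) (c : Γ → M) (hc : IsCoc π c)
    (z : Γ) (hz : ∀ g : Γ, g * z = z * g) (hzt : π z = 1) (g : Γ) : π g (c z) = c z := by
  have h1 := hc g z
  have h2 := hc z g
  rw [hzt, Module.End.one_apply] at h2
  rw [hz g, h2] at h1
  have : c z + c g = c g + π g (c z) := h1
  have h3 : c z = π g (c z) := by
    have := this
    rw [add_comm (c z) (c g)] at this
    exact add_left_cancel this
  exact h3.symm

end Fermat.Agent.TW.GrpH1.Cocycle
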