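/-
Programme TW (S56), brick D3 (helper21): the "derivation trick".

Let `k` be a field of characteristic `p`, `V ⊆ k` a finite additive subgroup, `W ⊆ k ∖ {0}` a
finite set of multipliers of `V` with `|V| ≤ 2 |W| + 1`, and `a` an additive function on `V` such
that for each `w ∈ W` the function `s ↦ a (w s) - w a(s)` is `k`-linear on `V`.  Then `a` itself
is `k`-linear on `V` (`linear_of_torus`).  Indeed the set of all `x` with these two properties is
a finite subring `R`, `V = R v₀` is a line over it by counting, and `x ↦ a (x v₀) - x a(v₀)` is a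
derivation of `R`, hence zero since Frobenius is surjective on the finite ring `R`.
Also the easy cyclic case (`linear_of_cyclic`).  Mathlib only.
-/
import Mathlib

namespace Fermat.Agent.TW.GrpH1.Linear

variable {k : Type*} [Field k]

/-- additive functions on an additive subgroup: value at `0` -/
lemma add_fun_zero (V : AddSubgroup k) (a : k → k)
    (hadd : ∀ s ∈ V, ∀ t ∈ V, a (s + t) = a s + a t) : a 0 = 0 := by
  have := hadd 0 V.zero_mem 0 V.zero_mem
  rw [add_zero] at this
  exact add_eq_left.1 this.symm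

lemma add_fun_neg (V : AddSubgroup k) (a : k → k)
    (hadd : ∀ s ∈ V, ∀ t ∈ V, a (s + t) = a s + a t) (s : k) (hs : s ∈ V) : a (-s) = -a s := by
  have := hadd s hs (-s) (V.neg_mem hs)
  rw [add_neg_cancel, add_fun_zero V a hadd] at this
  exact eq_neg_of_add_eq_zero_right this.symm

/-- the ring of "good multipliers" -/
def goodRing (V : AddSubgroup k) (a : k → k)
    (hadd : ∀ s ∈ V, ∀ t ∈ V, a (s + t) = a s + a t) : Subring k where
  carrier := {x | (∀ s ∈ V, x * s ∈ V) ∧ ∃ l : k, ∀ s ∈ V, a (x * s) = x * a s + l * s}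
  mul_mem' := by
    rintro x y ⟨hx1, lx, hx2⟩ ⟨hy1, ly, hy2⟩
    refine ⟨fun s hs => by rw [mul_assoc]; exact hx1 _ (hy1 s hs), x * ly + lx * y, ?_⟩
    intro s hs
    rw [mul_assoc, hx2 _ (hy1 s hs), hy2 s hs]
    ring
  one_mem' := ⟨fun s hs => by rwa [one_mul], 0, fun s _ => by rw [one_mul, one_mul, zero_mul,
    add_zero]⟩
  add_mem' := by
    rintro x y ⟨hx1, lx, hx2⟩ ⟨hy1, ly, hy2⟩
    refine ⟨fun s hs => by rw [add_mul]; exact V.add_mem (hx1 s hs) (hy1 s hs), lx + ly, ?_⟩
    intro s hs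
    rw [add_mul, hadd _ (hx1 s hs) _ (hy1 s hs), hx2 s hs, hy2 s hs]
    ring
  zero_mem' := ⟨fun s _ => by rw [zero_mul]; exact V.zero_mem, 0, fun s _ => by
    simp only [zero_mul, add_zero]; exact add_fun_zero V a hadd⟩
  neg_mem' := by
    rintro x ⟨hx1, lx, hx2⟩
    refine ⟨fun s hs => by rw [neg_mul]; exact V.neg_mem (hx1 s hs), -lx, ?_⟩
    intro s hs
    rw [neg_mul, add_fun_neg V a hadd _ (hx1 s hs), hx2 s hs]
    ring

lemma mem_goodRing (V : AddSubgroup k) (a : k → k)
    (hadd : ∀ s ∈ V, ∀ t ∈ V, a (s + t) = a s + a t) (x : k) :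
    x ∈ goodRing V a hadd ↔
      (∀ s ∈ V, x * s ∈ V) ∧ ∃ l : k, ∀ s ∈ V, a (x * s) = x * a s + l * s := Iff.rfl

/-- **Derivation trick.** -/
theorem linear_of_torus (p : ℕ) [Fact p.Prime] [CharP k p]
    (V : AddSubgroup k) [Finite V] (W : Finset k) (h0 : (0 : k) ∉ W)
    (hWV : ∀ w ∈ W, ∀ s ∈ V, w * s ∈ V)
    (hcard : Nat.card V ≤ 2 * W.card + 1)
    (a : k → k) (hadd : ∀ s ∈ V, ∀ t ∈ V, a (s + t) = a s + a t)
    (hrel : ∀ w ∈ W, ∃ l : k, ∀ s ∈ V, a (w * s) = w * a s + l * s) :
    ∃ κ : k, ∀ s ∈ V, a s = κ * s := by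
  classical
  by_cases hV : ∀ s ∈ V, s = 0
  · refine ⟨0, fun s hs => ?_⟩
    rw [hV s hs, add_fun_zero V a hadd, mul_zero]
  have hV' : ∃ v₀ ∈ V, v₀ ≠ 0 := by
    by_contra hcon
    exact hV (fun s hs => by_contra fun h => hcon ⟨s, hs, h⟩)
  obtain ⟨v₀, hv₀V, hv₀⟩ := hV'
  set R := goodRing V a hadd with hR
  -- the additive map `x ↦ x v₀` from `R` to `V`
  let φ : R →+ V :=
    { toFun := fun x => ⟨x.1 * v₀, x.2.1 v₀ hv₀V⟩
      map_zero' := by ext; simp
      map_add' := fun x y => by ext; simp [add_mul] }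
  have hφinj : Function.Injective φ := by
    intro x y hxy
    have : x.1 * v₀ = y.1 * v₀ := congrArg Subtype.val hxy
    exact Subtype.ext (mul_right_cancel₀ hv₀ this)
  have : Finite R := Finite.of_injective φ hφinj
  -- `W ∪ {0} ⊆ R`
  have hWR : ∀ w ∈ W, w ∈ R := fun w hw => ⟨hWV w hw, hrel w hw⟩
  have hRcard : W.card + 1 ≤ Nat.card R := by
    have hinj : Function.Injective (fun w : ↥(insert (0 : k) W) =>
        (⟨w.1, by
          rcases Finset.mem_insert.1 w.2 with h | h
          · rw [h]; exact R.zero_mem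
          · exact hWR _ h⟩ : R)) := by
      intro x y hxy
      have h1 : x.1 = y.1 := congrArg (fun r : R => r.1) hxy
      exact Subtype.ext h1
    have := Nat.card_le_card_of_injective _ hinj
    rw [Nat.card_eq_fintype_card, Fintype.card_coe, Finset.card_insert_of_notMem h0] at this
    exact this
  -- `φ` is surjective by counting
  have hφsurj : Function.Surjective φ := by
    have h1 : Nat.card φ.range = Nat.card R :=
      Nat.card_congr (Equiv.ofInjective φ hφinj).symm
    have h2 : Nat.card φ.range ∣ Nat.card V := AddSubgroup.card_addSubgroup_dvd_card φ.range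
    obtain ⟨j, hj⟩ := h2
    have hVpos : 0 < Nat.card V := Nat.card_pos
    have hj1 : j = 1 := by
      rcases Nat.lt_or_ge j 2 with h | h
      · interval_cases j
        · rw [mul_zero] at hj; omega
        · rfl
      · exfalso
        have : 2 * Nat.card φ.range ≤ Nat.card V := by
          rw [hj, mul_comm]; exact Nat.mul_le_mul_left _ h
        omega
    rw [hj1, mul_one] at hj
    have h3 : φ.range = ⊤ := AddSubgroup.eq_top_of_card_eq _ hj.symm
    exact AddMonoidHom.range_eq_top.1 h3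
  -- the derivation
  let D : k → k := fun x => a (x * v₀) - x * a v₀
  have hDl : ∀ x ∈ R, ∀ s ∈ V, a (x * s) = x * a s + (D x / v₀) * s := by
    intro x hx s hs
    obtain ⟨l, hl⟩ := hx.2
    have h1 := hl v₀ hv₀V
    have h2 : l = D x / v₀ := by
      rw [eq_div_iff hv₀]
      simp only [D]
      rw [h1]; ring
    rw [← h2]
    exact hl s hs
  have hleib : ∀ x ∈ R, ∀ y ∈ R, D (x * y) = x * D y + y * D x := by
    intro x hx y hy
    have h1 := hDl x hx (y * v₀) (hy.1 v₀ hv₀V)
    simp only [D]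
    rw [mul_assoc, h1]
    field_simp
    ring
  have hpow : ∀ x ∈ R, ∀ n : ℕ, D (x ^ (n + 1)) = ((n + 1 : ℕ) : k) * x ^ n * D x := by
    intro x hx n
    induction n with
    | zero => simp
    | succ n ih =>
      rw [pow_succ, hleib _ (R.pow_mem hx _) _ hx, ih]
      push_cast
      ring
  have hDp : ∀ x ∈ R, D (x ^ p) = 0 := by
    intro x hx
    have hp : p = (p - 1) + 1 := by
      have := (Fact.out : p.Prime).pos
      omega
    rw [hp, hpow x hx (p - 1), ← hp, CharP.cast_eq_zero k p, zero_mul, zero_mul]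
  -- Frobenius is surjective on `R`
  have hfrob : ∀ x ∈ R, ∃ y ∈ R, y ^ p = x := by
    let F : R → R := fun x => ⟨x.1 ^ p, R.pow_mem x.2 p⟩
    have hFinj : Function.Injective F := by
      intro x y hxy
      have h1 : x.1 ^ p = y.1 ^ p := congrArg Subtype.val hxy
      have h2 : frobenius k p x.1 = frobenius k p y.1 := by
        simpa [frobenius_def] using h1
      exact Subtype.ext (frobenius_inj k p h2)
    have hFsurj : Function.Surjective F := Finite.surjective_of_injective hFinj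
    intro x hx
    obtain ⟨y, hy⟩ := hFsurj ⟨x, hx⟩
    exact ⟨y.1, y.2, congrArg Subtype.val hy⟩
  have hD0 : ∀ x ∈ R, D x = 0 := by
    intro x hx
    obtain ⟨y, hy, rfl⟩ := hfrob x hx
    exact hDp y hy
  refine ⟨a v₀ / v₀, fun s hs => ?_⟩
  obtain ⟨x, hx⟩ := hφsurj ⟨s, hs⟩
  have hxs : x.1 * v₀ = s := congrArg Subtype.val hx
  have := hD0 x.1 x.2
  simp only [D] at this
  rw [← hxs, sub_eq_zero.1 this]
  field_simp

/-- The cyclic case: an additive function on `ℤ v₀` is linear. -/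
theorem linear_of_cyclic (V : AddSubgroup k) (v₀ : k) (hv₀ : v₀ ≠ 0) (hv₀V : v₀ ∈ V)
    (hcyc : ∀ s ∈ V, ∃ n : ℤ, s = n • v₀)
    (a : k → k) (hadd : ∀ s ∈ V, ∀ t ∈ V, a (s + t) = a s + a t) :
    ∃ κ : k, ∀ s ∈ V, a s = κ * s := by
  refine ⟨a v₀ / v₀, fun s hs => ?_⟩
  obtain ⟨n, rfl⟩ := hcyc s hs
  have hnat : ∀ m : ℕ, a ((m : ℤ) • v₀) = (m : ℤ) • a v₀ := by
    intro m
    induction m with
    | zero => simp [add_fun_zero V a hadd]
    | succ m ih =>
      have h1 : ((m + 1 : ℕ) : ℤ) • v₀ = (m : ℤ) • v₀ + v₀ := by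
        push_cast; rw [add_smul, one_smul]
      have h2 : ((m + 1 : ℕ) : ℤ) • a v₀ = (m : ℤ) • a v₀ + a v₀ := by
        push_cast; rw [add_smul, one_smul]
      rw [h1, h2, hadd _ (V.zsmul_mem hv₀V _) _ hv₀V, ih]
  have hint : ∀ n : ℤ, a (n • v₀) = n • a v₀ := by
    intro n
    obtain ⟨m, rfl | rfl⟩ := n.eq_nat_or_neg
    · exact hnat m
    · rw [neg_smul, neg_smul, add_fun_neg V a hadd _ (V.zsmul_mem hv₀V _), hnat m]
  rw [hint n]
  simp only [zsmul_eq_mul]
  field_simp

end Fermat.Agent.TW.GrpH1.Linear
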