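/-
Programme TW (S56), brick D3 (helper21): explicit 1-cocycles of `ad⁰ ⊗ det` on the unipotent
subgroup.

`act g X = g X adj(g)` is the action of `GL₂(k)` on `2 × 2` matrices (on trace zero matrices
this is `ad⁰ ⊗ det`, since `det(g) g X g⁻¹ = g X adj(g)`).  For a subgroup `Γ` of `GL₂(k)`
(`char k = p` odd) with unipotent part `{u t | t ∈ V}` and a trace-zero cocycle `c` on `Γ`, we
parametrise `c` on the unipotent part (`γ`-, `β`-, `a`-parts) and show that it is a coboundary
there as soon as (i) `p = 3` or some upper triangular `b ∈ Γ` has `δ³ ≠ α`, and (ii) `V` is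
cyclic, or the torus of `Γ ∩ SL₂` acting on `V` has at least `(|V| - 1)/2` elements
(`unip_coboundary`).  Mathlib only.
-/
import Fermat.Agent.TW.GrpH1.Linear

namespace Fermat.Agent.TW.GrpH1.Unip

open Matrix Matrix.GeneralLinearGroup

variable {k : Type*} [Field k]

/-- the action `g · X = g X adj(g)` (`= det(g) g X g⁻¹`) -/
def act (g : GL (Fin 2) k) (X : Matrix (Fin 2) (Fin 2) k) : Matrix (Fin 2) (Fin 2) k :=
  g.val * X * g.val.adjugate

lemma act_apply (g : GL (Fin 2) k) (X : Matrix (Fin 2) (Fin 2) k) :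
    act g X = !![(g 0 0 * X 0 0 + g 0 1 * X 1 0) * g 1 1 - (g 0 0 * X 0 1 + g 0 1 * X 1 1) * g 1 0,
      -(g 0 0 * X 0 0 + g 0 1 * X 1 0) * g 0 1 + (g 0 0 * X 0 1 + g 0 1 * X 1 1) * g 0 0;
      (g 1 0 * X 0 0 + g 1 1 * X 1 0) * g 1 1 - (g 1 0 * X 0 1 + g 1 1 * X 1 1) * g 1 0,
      -(g 1 0 * X 0 0 + g 1 1 * X 1 0) * g 0 1 + (g 1 0 * X 0 1 + g 1 1 * X 1 1) * g 0 0] := by
  rw [act, Matrix.adjugate_fin_two]
  ext i j
  fin_cases i <;> fin_cases j <;>
    simp [Matrix.mul_apply, Fin.sum_univ_two] <;> ring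

lemma act_one (X : Matrix (Fin 2) (Fin 2) k) : act 1 X = X := by
  rw [act, Units.val_one, Matrix.adjugate_one, one_mul, mul_one]

lemma act_mul (g h : GL (Fin 2) k) (X : Matrix (Fin 2) (Fin 2) k) :
    act (g * h) X = act g (act h X) := by
  simp only [act, Units.val_mul, Matrix.adjugate_mul_distrib]
  simp only [mul_assoc]

lemma act_add (g : GL (Fin 2) k) (X Y : Matrix (Fin 2) (Fin 2) k) :
    act g (X + Y) = act g X + act g Y := by
  simp only [act, mul_add, add_mul]

lemma act_sub (g : GL (Fin 2) k) (X Y : Matrix (Fin 2) (Fin 2) k) :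
    act g (X - Y) = act g X - act g Y := by
  simp only [act, mul_sub, sub_mul]

lemma act_zero (g : GL (Fin 2) k) : act g 0 = 0 := by
  simp only [act, mul_zero, zero_mul]

lemma trace_act (g : GL (Fin 2) k) (X : Matrix (Fin 2) (Fin 2) k) :
    (act g X).trace = g.val.det * X.trace := by
  rw [act, Matrix.trace_mul_comm, ← mul_assoc, Matrix.adjugate_mul, Matrix.smul_mul, one_mul,
    Matrix.trace_smul, smul_eq_mul]

/-- trace-zero cocycles of the subgroup `Γ` for the action `act` -/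
def IsCocOn (Γ : Subgroup (GL (Fin 2) k)) (c : GL (Fin 2) k → Matrix (Fin 2) (Fin 2) k) : Prop :=
  (∀ g ∈ Γ, ∀ h ∈ Γ, c (g * h) = c g + act g (c h)) ∧ ∀ g ∈ Γ, (c g).trace = 0

/-- trace-zero coboundaries on a subset -/
def IsCobOn (S : Set (GL (Fin 2) k)) (c : GL (Fin 2) k → Matrix (Fin 2) (Fin 2) k) : Prop :=
  ∃ m : Matrix (Fin 2) (Fin 2) k, m.trace = 0 ∧ ∀ g ∈ S, c g = act g m - m

lemma IsCocOn.map_one {Γ : Subgroup (GL (Fin 2) k)}
    {c : GL (Fin 2) k → Matrix (Fin 2) (Fin 2) k} (hc : IsCocOn Γ c) : c 1 = 0 := by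
  have h := hc.1 1 Γ.one_mem 1 Γ.one_mem
  rw [mul_one, act_one] at h
  exact add_eq_left.1 h.symm

lemma upper_val (t : k) : (upperRightHom t : GL (Fin 2) k).val = !![1, t; 0, 1] := rfl

lemma upper_apply (t : k) : (upperRightHom t : GL (Fin 2) k) 0 0 = 1 ∧
    (upperRightHom t : GL (Fin 2) k) 0 1 = t ∧ (upperRightHom t : GL (Fin 2) k) 1 0 = 0 ∧
    (upperRightHom t : GL (Fin 2) k) 1 1 = 1 := by
  refine ⟨rfl, rfl, rfl, rfl⟩

/-- conjugation of an upper unipotent by an upper triangular element (division free form) -/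
lemma upper_conj' (b : GL (Fin 2) k) (hb : b 1 0 = 0) (t t' : k)
    (h : t' * b 1 1 = b 0 0 * t) : b * upperRightHom t = upperRightHom t' * b := by
  apply Units.ext
  rw [Units.val_mul, Units.val_mul, upper_val, upper_val]
  ext i j
  fin_cases i <;> fin_cases j
  · simp [Matrix.mul_apply, Fin.sum_univ_two, hb]
  · simp only [Fin.zero_eta, Fin.mk_one, Fin.isValue, Matrix.mul_apply, Fin.sum_univ_two,
      Matrix.of_apply, Matrix.cons_val', Matrix.cons_val_zero, Matrix.cons_val_fin_one,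
      Matrix.cons_val_one, one_mul]
    linear_combination -h
  · simp [Matrix.mul_apply, Fin.sum_univ_two, hb]
  · simp [Matrix.mul_apply, Fin.sum_univ_two, hb]

/-- conjugation of an upper unipotent by an upper triangular element -/
lemma upper_conj (b : GL (Fin 2) k) (hb : b 1 0 = 0) (t : k) :
    b * upperRightHom t = upperRightHom (b 0 0 * t / b 1 1) * b := by
  have hdet : b.val.det ≠ 0 := Matrix.GeneralLinearGroup.det_ne_zero b
  rw [Matrix.det_fin_two, hb, mul_zero, sub_zero] at hdet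
  have hd : b 1 1 ≠ 0 := right_ne_zero_of_mul hdet
  exact upper_conj' b hb t _ (div_mul_cancel₀ _ hd)

section main

variable (p : ℕ) [Fact p.Prime] [CharP k p]

include p in
lemma two_ne_zero' (hp2 : p ≠ 2) : (2 : k) ≠ 0 := by
  intro h
  have h2 : ((2 : ℕ) : k) = 0 := by exact_mod_cast h
  rw [CharP.cast_eq_zero_iff k p] at h2
  have := (Nat.prime_dvd_prime_iff_eq (Fact.out : p.Prime) Nat.prime_two).1 h2
  exact hp2 this

/-- **Cocycles on the unipotent part are coboundaries.** -/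
theorem unip_coboundary (hp2 : p ≠ 2)
    (Γ : Subgroup (GL (Fin 2) k)) (c : GL (Fin 2) k → Matrix (Fin 2) (Fin 2) k)
    (hc : IsCocOn Γ c) (V : AddSubgroup k) (hV : ∀ t, t ∈ V ↔ upperRightHom t ∈ Γ)
    (hγ : p = 3 ∨ ∃ b ∈ Γ, b 1 0 = 0 ∧ (b 1 1) ^ 3 ≠ b 0 0)
    (hlin : (∃ v₀ ∈ V, v₀ ≠ 0 ∧ ∀ s ∈ V, ∃ n : ℤ, s = n • v₀) ∨
      (Finite V ∧ ∃ W : Finset k,
        (∀ w ∈ W, ∃ b ∈ Γ, b 1 0 = 0 ∧ b.val.det = 1 ∧ w = b 0 0 / b 1 1) ∧
        Nat.card V ≤ 2 * W.card + 1)) :
    ∃ m : Matrix (Fin 2) (Fin 2) k, m.trace = 0 ∧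
      ∀ t ∈ V, c (upperRightHom t) = act (upperRightHom t) m - m := by
  have h2 : (2 : k) ≠ 0 := two_ne_zero' p hp2
  -- trivial case
  by_cases hVtriv : ∀ t ∈ V, t = 0
  · refine ⟨0, by simp, fun t ht => ?_⟩
    rw [hVtriv t ht, AddChar.map_zero_eq_one, hc.map_one, act_zero, sub_zero]
  have hV' : ∃ t₀ ∈ V, t₀ ≠ 0 := by
    by_contra hcon
    exact hVtriv (fun s hs => by_contra fun h => hcon ⟨s, hs, h⟩)
  obtain ⟨t₀, ht₀V, ht₀⟩ := hV'
  -- the components
  set A : k → k := fun t => c (upperRightHom t) 0 1 with hA_def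
  set B : k → k := fun t => c (upperRightHom t) 0 0 with hB_def
  set C : k → k := fun t => c (upperRightHom t) 1 0 with hC_def
  have hX11 : ∀ t ∈ V, c (upperRightHom t) 1 1 = -B t := by
    intro t ht
    have := hc.2 _ ((hV t).1 ht)
    rw [Matrix.trace_fin_two] at this
    simp only [hB_def]
    exact eq_neg_of_add_eq_zero_right this
  -- the cocycle equations on the unipotent part
  have hcoc : ∀ s ∈ V, ∀ t ∈ V,
      C (s + t) = C s + C t ∧ B (s + t) = B s + B t + s * C t ∧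
        A (s + t) = A s + A t - 2 * s * B t - s ^ 2 * C t := by
    intro s hs t ht
    have h := hc.1 _ ((hV s).1 hs) _ ((hV t).1 ht)
    rw [← AddChar.map_add_eq_mul, act_apply] at h
    obtain ⟨u00, u01, u10, u11⟩ := upper_apply s
    rw [u00, u01, u10, u11] at h
    have e00 := congrFun (congrFun h 0) 0
    have e01 := congrFun (congrFun h 0) 1
    have e10 := congrFun (congrFun h 1) 0
    simp only [Matrix.add_apply, Matrix.of_apply, Matrix.cons_val', Matrix.cons_val_zero,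
      Matrix.cons_val_one, Matrix.cons_val_fin_one] at e00 e01 e10
    have h11 := hX11 t ht
    simp only [hA_def, hB_def, hC_def] at h11 ⊢
    refine ⟨?_, ?_, ?_⟩
    · rw [e10]; ring
    · rw [e00]; ring
    · rw [e01, h11]; ring
  -- equations coming from an upper triangular element of `Γ`
  have hconj : ∀ b ∈ Γ, b 1 0 = 0 → ∀ s ∈ V,
      b 0 0 * s / b 1 1 ∈ V ∧
      C (b 0 0 * s / b 1 1) = (b 1 1) ^ 2 * C s ∧
      B (b 0 0 * s / b 1 1) + (b 0 0 * s / b 1 1) * (c b 1 0)
        = b 1 1 * (b 0 0 * B s + b 0 1 * C s) ∧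
      A (b 0 0 * s / b 1 1) - 2 * (b 0 0 * s / b 1 1) * (c b 0 0)
          - (b 0 0 * s / b 1 1) ^ 2 * (c b 1 0)
        = (b 0 0) ^ 2 * A s - 2 * b 0 0 * b 0 1 * B s - (b 0 1) ^ 2 * C s := by
    intro b hb hb10 s hs
    have hconj := upper_conj b hb10 s
    have hsΓ := (hV s).1 hs
    have htΓ : upperRightHom (b 0 0 * s / b 1 1) ∈ Γ := by
      have : upperRightHom (b 0 0 * s / b 1 1) = b * upperRightHom s * b⁻¹ := by
        rw [hconj, mul_inv_cancel_right]
      rw [this]
      exact Γ.mul_mem (Γ.mul_mem hb hsΓ) (Γ.inv_mem hb)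
    have htV := (hV _).2 htΓ
    refine ⟨htV, ?_⟩
    have h1 := hc.1 b hb _ hsΓ
    have h2' := hc.1 _ htΓ b hb
    rw [hconj, h2', act_apply, act_apply] at h1
    obtain ⟨u00, u01, u10, u11⟩ := upper_apply (b 0 0 * s / b 1 1)
    rw [u00, u01, u10, u11, hb10] at h1
    have e00 := congrFun (congrFun h1 0) 0
    have e01 := congrFun (congrFun h1 0) 1
    have e10 := congrFun (congrFun h1 1) 0
    simp only [Matrix.add_apply, Matrix.of_apply, Matrix.cons_val', Matrix.cons_val_zero,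
      Matrix.cons_val_one, Matrix.cons_val_fin_one] at e00 e01 e10
    have hb11 : c b 1 1 = - c b 0 0 := by
      have := hc.2 b hb
      rw [Matrix.trace_fin_two] at this
      exact eq_neg_of_add_eq_zero_right this
    have hs11 := hX11 s hs
    simp only [hA_def, hB_def, hC_def] at hs11 ⊢
    rw [hb11] at e01
    rw [hs11] at e01
    refine ⟨?_, ?_, ?_⟩
    · linear_combination e10
    · linear_combination e00
    · linear_combination e01
  -- the `γ`-part
  obtain ⟨γ, hγ_def⟩ : ∃ γ : k, γ = C t₀ / t₀ := ⟨_, rfl⟩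
  have hCγ : ∀ t ∈ V, C t = γ * t := by
    intro t ht
    have e1 := (hcoc t₀ ht₀V t ht).2.1
    have e2 := (hcoc t ht t₀ ht₀V).2.1
    rw [add_comm t t₀] at e2
    have e3 : t₀ * C t = t * C t₀ := by linear_combination e2 - e1
    rw [hγ_def]
    field_simp
    linear_combination e3
  -- the `β`-part
  obtain ⟨β₀, hβ₀_def⟩ : ∃ β₀ : k, β₀ = (B t₀ - γ * t₀ ^ 2 / 2) / t₀ := ⟨_, rfl⟩
  have hBβ : ∀ t ∈ V, B t = γ * t ^ 2 / 2 + β₀ * t := by
    intro t ht
    have e1 := (hcoc t₀ ht₀V t ht).2.2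
    have e2 := (hcoc t ht t₀ ht₀V).2.2
    rw [add_comm t t₀] at e2
    have e3 : 2 * t₀ * B t + t₀ ^ 2 * C t = 2 * t * B t₀ + t ^ 2 * C t₀ := by
      linear_combination e1 - e2
    rw [hCγ t ht, hCγ t₀ ht₀V] at e3
    rw [hβ₀_def]
    field_simp
    linear_combination e3
  -- `γ = 0`
  have hγ0 : γ = 0 := by
    rcases hγ with hp3 | ⟨b, hb, hb10, hbne⟩
    · -- characteristic three
      have h3 : (3 : k) = 0 := by
        have : ((p : ℕ) : k) = 0 := CharP.cast_eq_zero k p
        rw [hp3] at this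
        exact_mod_cast this
      have hA0 : A 0 = 0 := by
        have := (hcoc 0 V.zero_mem 0 V.zero_mem).2.2
        rw [add_zero] at this
        linear_combination -this
      have e1 := (hcoc t₀ ht₀V t₀ ht₀V).2.2
      have e2 := (hcoc (t₀ + t₀) (V.add_mem ht₀V ht₀V) t₀ ht₀V).2.2
      have e3 : t₀ + t₀ + t₀ = 0 := by linear_combination t₀ * h3
      rw [e3, hA0, e1, hCγ t₀ ht₀V] at e2
      have e4 : γ * t₀ ^ 3 = 0 := by
        linear_combination (-1 : k) * e2 + (2 * γ * t₀ ^ 3 - A t₀ + 2 * t₀ * B t₀) * h3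
      rcases mul_eq_zero.1 e4 with h | h
      · exact h
      · exact absurd (pow_eq_zero_iff (by norm_num) |>.1 h) ht₀
    · have hdet : b.val.det ≠ 0 := Matrix.GeneralLinearGroup.det_ne_zero b
      rw [Matrix.det_fin_two, hb10, mul_zero, sub_zero] at hdet
      have hd : b 1 1 ≠ 0 := right_ne_zero_of_mul hdet
      obtain ⟨htV, eC, -, -⟩ := hconj b hb hb10 t₀ ht₀V
      rw [hCγ _ htV, hCγ t₀ ht₀V] at eC
      have hx : b 0 0 * t₀ / b 1 1 * b 1 1 = b 0 0 * t₀ := div_mul_cancel₀ _ hd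
      have e1 : γ * t₀ * (b 0 0 - (b 1 1) ^ 3) = 0 := by
        linear_combination b 1 1 * eC - γ * hx
      rcases mul_eq_zero.1 e1 with h | h
      · rcases mul_eq_zero.1 h with h' | h'
        · exact h'
        · exact absurd h' ht₀
      · exact absurd (sub_eq_zero.1 h).symm hbne
  have hC0 : ∀ t ∈ V, C t = 0 := fun t ht => by rw [hCγ t ht, hγ0, zero_mul]
  have hBt : ∀ t ∈ V, B t = β₀ * t := fun t ht => by
    rw [hBβ t ht, hγ0, zero_mul, zero_div, zero_add]
  -- the `a`-part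
  set a : k → k := fun t => A t + β₀ * t ^ 2 with ha_def
  have hadd : ∀ s ∈ V, ∀ t ∈ V, a (s + t) = a s + a t := by
    intro s hs t ht
    have e := (hcoc s hs t ht).2.2
    rw [hBt t ht, hC0 t ht] at e
    simp only [ha_def]
    rw [e]; ring
  have hakey : ∃ κ : k, ∀ s ∈ V, a s = κ * s := by
    rcases hlin with ⟨v₀, hv₀V, hv₀, hcyc⟩ | ⟨hfin, W, hW, hcard⟩
    · exact Linear.linear_of_cyclic V v₀ hv₀ hv₀V hcyc a hadd
    · have := hfin
      have hWprop : ∀ w ∈ W, w ≠ 0 ∧ (∀ s ∈ V, w * s ∈ V) ∧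
          ∃ l : k, ∀ s ∈ V, a (w * s) = w * a s + l * s := by
        intro w hw
        obtain ⟨b, hb, hb10, hbdet, rfl⟩ := hW w hw
        have hαδ : b 0 0 * b 1 1 = 1 := by
          rw [Matrix.det_fin_two, hb10, mul_zero, sub_zero] at hbdet
          exact hbdet
        have hα : b 0 0 ≠ 0 := left_ne_zero_of_mul_eq_one hαδ
        have hδ : b 1 1 ≠ 0 := right_ne_zero_of_mul_eq_one hαδ
        refine ⟨div_ne_zero hα hδ, ?_, ?_⟩
        · intro s hs
          have := (hconj b hb hb10 s hs).1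
          rwa [mul_div_right_comm] at this
        · refine ⟨2 * (b 0 0 / b 1 1) * c b 0 0 - 2 * b 0 0 * b 0 1 * β₀, ?_⟩
          intro s hs
          obtain ⟨htV, -, eB, eA⟩ := hconj b hb hb10 s hs
          rw [hBt _ htV, hBt s hs, hC0 s hs] at eB
          rw [hBt s hs, hC0 s hs] at eA
          have hts : b 0 0 / b 1 1 * s = b 0 0 * s / b 1 1 := by ring
          have hX : b 0 0 * s / b 1 1 = (b 0 0) ^ 2 * s := by
            rw [div_eq_iff hδ]
            linear_combination (-(b 0 0 * s)) * hαδ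
          have hw : b 0 0 / b 1 1 = (b 0 0) ^ 2 := by
            rw [div_eq_iff hδ]
            linear_combination (-(b 0 0)) * hαδ
          rw [hts, hX, hw]
          rw [hX] at eA eB
          simp only [ha_def]
          linear_combination eA + ((b 0 0) ^ 2 * s) * eB + (β₀ * (b 0 0) ^ 2 * s ^ 2) * hαδ
      exact Linear.linear_of_torus p V W (fun h0 => (hWprop 0 h0).1 rfl)
        (fun w hw => (hWprop w hw).2.1) hcard a hadd (fun w hw => (hWprop w hw).2.2)
  obtain ⟨κ, hκ⟩ := hakey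
  -- the coboundary
  refine ⟨!![-κ / 2, 0; β₀, κ / 2], ?_, ?_⟩
  · rw [Matrix.trace_fin_two_of]; ring
  · intro t ht
    have hAt : A t = κ * t - β₀ * t ^ 2 := by
      have := hκ t ht
      simp only [ha_def] at this
      linear_combination this
    have h00 : c (upperRightHom t) 0 0 = β₀ * t := hBt t ht
    have h01 : c (upperRightHom t) 0 1 = κ * t - β₀ * t ^ 2 := hAt
    have h10 : c (upperRightHom t) 1 0 = 0 := hC0 t ht
    have h11 : c (upperRightHom t) 1 1 = -(β₀ * t) := by rw [hX11 t ht, hBt t ht]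
    rw [act_apply]
    obtain ⟨u00, u01, u10, u11⟩ := upper_apply t
    rw [u00, u01, u10, u11]
    ext i j
    fin_cases i <;> fin_cases j
    · simp only [Fin.zero_eta, Fin.isValue, h00, Matrix.sub_apply, Matrix.of_apply,
        Matrix.cons_val', Matrix.cons_val_zero, Matrix.cons_val_fin_one, Matrix.cons_val_one]
      ring
    · simp only [Fin.zero_eta, Fin.mk_one, Fin.isValue, h01, Matrix.sub_apply, Matrix.of_apply,
        Matrix.cons_val', Matrix.cons_val_zero, Matrix.cons_val_fin_one, Matrix.cons_val_one]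
      field_simp
      ring
    · simp only [Fin.zero_eta, Fin.mk_one, Fin.isValue, h10, Matrix.sub_apply, Matrix.of_apply,
        Matrix.cons_val', Matrix.cons_val_zero, Matrix.cons_val_fin_one, Matrix.cons_val_one]
      ring
    · simp only [Fin.mk_one, Fin.isValue, h11, Matrix.sub_apply, Matrix.of_apply,
        Matrix.cons_val', Matrix.cons_val_zero, Matrix.cons_val_fin_one, Matrix.cons_val_one]
      ring

end main

end Fermat.Agent.TW.GrpH1.Unip
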