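/-
Programme TW (S56), brick D3 (helper21): auxiliary lemmas for the normalized vanishing theorem:
the action `act` as a monoid hom into linear maps, trace correction of a coboundary, upper
triangular elements of `p`-power order are unipotent, the subgroups `unipSub V` and `sl Γ`.
Mathlib only.
-/
import Fermat.Agent.TW.GrpH1.Unip
import Fermat.Agent.TW.GrpH1.Cocycle

namespace Fermat.Agent.TW.GrpH1.NormAux

open Matrix Matrix.GeneralLinearGroup Fermat.Agent.TW.GrpH1.Unip

variable {k : Type*} [Field k]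

/-- `act g` as a linear map -/
def actLin (g : GL (Fin 2) k) :
    Matrix (Fin 2) (Fin 2) k →ₗ[k] Matrix (Fin 2) (Fin 2) k where
  toFun := act g
  map_add' := act_add g
  map_smul' := by
    intro r X
    simp only [act, Matrix.mul_smul, Matrix.smul_mul, RingHom.id_apply]

/-- `act` as a monoid hom -/
def actHom : GL (Fin 2) k →* (Matrix (Fin 2) (Fin 2) k →ₗ[k] Matrix (Fin 2) (Fin 2) k) where
  toFun := actLin
  map_one' := LinearMap.ext act_one
  map_mul' g h := LinearMap.ext (act_mul g h)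

@[simp] lemma actHom_apply (g : GL (Fin 2) k) (X : Matrix (Fin 2) (Fin 2) k) :
    actHom g X = act g X := rfl

lemma act_one_mat (g : GL (Fin 2) k) :
    act g (1 : Matrix (Fin 2) (Fin 2) k) = g.val.det • (1 : Matrix (Fin 2) (Fin 2) k) := by
  rw [act, mul_one, Matrix.mul_adjugate]

lemma act_smul (g : GL (Fin 2) k) (r : k) (X : Matrix (Fin 2) (Fin 2) k) :
    act g (r • X) = r • act g X := by
  simp only [act, Matrix.mul_smul, Matrix.smul_mul]

/-- A coboundary with trace zero values is the coboundary of a trace zero matrix. -/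
lemma cob_trace_fix (h2 : (2 : k) ≠ 0) (S : Set (GL (Fin 2) k))
    (c : GL (Fin 2) k → Matrix (Fin 2) (Fin 2) k) (htr : ∀ g ∈ S, (c g).trace = 0)
    (m : Matrix (Fin 2) (Fin 2) k) (hm : ∀ g ∈ S, c g = act g m - m) : IsCobOn S c := by
  refine ⟨m - (m.trace / 2) • (1 : Matrix (Fin 2) (Fin 2) k), ?_, ?_⟩
  · rw [Matrix.trace_sub, Matrix.trace_smul, Matrix.trace_one, Fintype.card_fin, smul_eq_mul]
    push_cast
    field_simp
    ring
  · intro g hg
    have h1 := htr g hg
    rw [hm g hg, Matrix.trace_sub, trace_act] at h1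
    rw [hm g hg, act_sub, act_smul, act_one_mat]
    have h3 : (m.trace / 2) • g.val.det • (1 : Matrix (Fin 2) (Fin 2) k)
        = (m.trace / 2) • (1 : Matrix (Fin 2) (Fin 2) k) := by
      rw [smul_smul]
      congr 1
      have : g.val.det * m.trace = m.trace := sub_eq_zero.1 h1
      field_simp
      linear_combination this
    rw [h3]
    abel

/-- powers of upper triangular elements -/
lemma upper_pow (g : GL (Fin 2) k) (hg : g 1 0 = 0) (n : ℕ) :
    (g ^ n : GL (Fin 2) k) 1 0 = 0 ∧ (g ^ n : GL (Fin 2) k) 0 0 = (g 0 0) ^ n ∧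
      (g ^ n : GL (Fin 2) k) 1 1 = (g 1 1) ^ n := by
  induction n with
  | zero => simp
  | succ n ih =>
    obtain ⟨h1, h2, h3⟩ := ih
    rw [pow_succ]
    have e : ∀ i j : Fin 2, (g ^ n * g : GL (Fin 2) k) i j
        = (g ^ n : GL (Fin 2) k) i 0 * g 0 j + (g ^ n : GL (Fin 2) k) i 1 * g 1 j := by
      intro i j
      rw [Matrix.GeneralLinearGroup.coe_mul, Matrix.mul_apply, Fin.sum_univ_two]
    refine ⟨?_, ?_, ?_⟩
    · rw [e, h1, hg]; ring
    · rw [e, h2, hg]; ring
    · rw [e, h1, h3]; ring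

section charp

variable (p : ℕ) [Fact p.Prime] [CharP k p]

include p in
lemma eq_one_of_pow_char_pow (x : k) (n : ℕ) (hx : x ^ (p ^ n) = 1) : x = 1 := by
  have h := sub_pow_char_pow (R := k) (p := p) (n := n) (x := x) (y := 1)
  rw [hx, one_pow, sub_self] at h
  exact sub_eq_zero.1 (pow_eq_zero_iff (pow_ne_zero n (Fact.out : p.Prime).ne_zero) |>.1 h)

/-- an upper triangular element of `p`-power order is unipotent -/
lemma eq_upper_of_pow (g : GL (Fin 2) k) (hg : g 1 0 = 0) (n : ℕ) (hn : g ^ (p ^ n) = 1) :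
    g = upperRightHom (g 0 1) := by
  obtain ⟨-, h2, h3⟩ := upper_pow g hg (p ^ n)
  rw [hn] at h2 h3
  have h00 : g 0 0 = 1 := eq_one_of_pow_char_pow p _ n (by rw [← h2]; simp)
  have h11 : g 1 1 = 1 := eq_one_of_pow_char_pow p _ n (by rw [← h3]; simp)
  apply Units.ext
  rw [upper_val]
  ext i j
  fin_cases i <;> fin_cases j <;> simp [h00, h11, hg]

end charp

/-- the unipotent subgroup attached to an additive subgroup -/
def unipSub (V : AddSubgroup k) : Subgroup (GL (Fin 2) k) where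
  carrier := {g | ∃ t ∈ V, g = upperRightHom t}
  mul_mem' := by
    rintro _ _ ⟨s, hs, rfl⟩ ⟨t, ht, rfl⟩
    exact ⟨s + t, V.add_mem hs ht, (AddChar.map_add_eq_mul _ _ _).symm⟩
  one_mem' := ⟨0, V.zero_mem, (AddChar.map_zero_eq_one _).symm⟩
  inv_mem' := by
    rintro _ ⟨s, hs, rfl⟩
    exact ⟨-s, V.neg_mem hs, (AddChar.map_neg_eq_inv _ _).symm⟩

lemma mem_unipSub (V : AddSubgroup k) (g : GL (Fin 2) k) :
    g ∈ unipSub V ↔ ∃ t ∈ V, g = upperRightHom t := Iff.rfl

/-- the additive subgroup of parameters of upper unipotents of `Γ` -/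
def unipParam (Γ : Subgroup (GL (Fin 2) k)) : AddSubgroup k where
  carrier := {t | upperRightHom t ∈ Γ}
  add_mem' := by
    intro s t hs ht
    simp only [Set.mem_ofPred_eq] at hs ht ⊢
    rw [AddChar.map_add_eq_mul]
    exact Γ.mul_mem hs ht
  zero_mem' := by
    simp only [Set.mem_ofPred_eq]
    rw [AddChar.map_zero_eq_one]
    exact Γ.one_mem
  neg_mem' := by
    intro s hs
    simp only [Set.mem_ofPred_eq] at hs ⊢
    rw [AddChar.map_neg_eq_inv]
    exact Γ.inv_mem hs

lemma mem_unipParam (Γ : Subgroup (GL (Fin 2) k)) (t : k) :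
    t ∈ unipParam Γ ↔ upperRightHom t ∈ Γ := Iff.rfl

/-- the determinant one part of `Γ` -/
def sl (Γ : Subgroup (GL (Fin 2) k)) : Subgroup (GL (Fin 2) k) where
  carrier := {g | g ∈ Γ ∧ g.val.det = 1}
  mul_mem' := by
    rintro g h ⟨hg, hg1⟩ ⟨hh, hh1⟩
    refine ⟨Γ.mul_mem hg hh, ?_⟩
    rw [Units.val_mul, Matrix.det_mul, hg1, hh1, one_mul]
  one_mem' := ⟨Γ.one_mem, by simp⟩
  inv_mem' := by
    rintro g ⟨hg, hg1⟩
    refine ⟨Γ.inv_mem hg, ?_⟩
    have h : (g⁻¹ : GL (Fin 2) k).val.det * g.val.det = 1 := by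
      rw [← Matrix.det_mul, ← Units.val_mul, inv_mul_cancel, Units.val_one, Matrix.det_one]
    rwa [hg1, mul_one] at h

lemma mem_sl (Γ : Subgroup (GL (Fin 2) k)) (g : GL (Fin 2) k) :
    g ∈ sl Γ ↔ g ∈ Γ ∧ g.val.det = 1 := Iff.rfl

lemma sl_le (Γ : Subgroup (GL (Fin 2) k)) : sl Γ ≤ Γ := fun _ h => h.1

lemma det_upper (t : k) : (upperRightHom t : GL (Fin 2) k).val.det = 1 := by
  rw [upper_val, Matrix.det_fin_two_of]; ring

/-- If `Γ` does not fix `∞` and contains a nontrivial upper unipotent, then `sl Γ` does not fix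
`∞` either. -/
lemma sl_moves (Γ : Subgroup (GL (Fin 2) k)) (hirr : ∃ g ∈ Γ, g 1 0 ≠ 0)
    (t₀ : k) (ht₀ : t₀ ≠ 0) (ht₀Γ : upperRightHom t₀ ∈ Γ) : ∃ g ∈ sl Γ, g 1 0 ≠ 0 := by
  obtain ⟨g, hg, hg10⟩ := hirr
  refine ⟨g * upperRightHom t₀ * g⁻¹, ⟨Γ.mul_mem (Γ.mul_mem hg ht₀Γ) (Γ.inv_mem hg), ?_⟩, ?_⟩
  · have h : (g * upperRightHom t₀ * g⁻¹ : GL (Fin 2) k).val.det
        = g.val.det * 1 * (g⁻¹ : GL (Fin 2) k).val.det := by
      rw [Units.val_mul, Units.val_mul, Matrix.det_mul, Matrix.det_mul, det_upper]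
    rw [h, mul_one, ← Matrix.det_mul, ← Units.val_mul, mul_inv_cancel, Units.val_one,
      Matrix.det_one]
  · intro hcon
    set g' := g * upperRightHom t₀ * g⁻¹ with hg'
    have hmul : g' * g = g * upperRightHom t₀ := by rw [hg', inv_mul_cancel_right]
    have e : ∀ (a b : GL (Fin 2) k) (i j : Fin 2), (a * b : GL (Fin 2) k) i j
        = a i 0 * b 0 j + a i 1 * b 1 j := by
      intro a b i j
      rw [Matrix.GeneralLinearGroup.coe_mul, Matrix.mul_apply, Fin.sum_univ_two]
    obtain ⟨u00, u01, u10, u11⟩ := upper_apply t₀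
    have e10 : g' 1 0 * g 0 0 + g' 1 1 * g 1 0 = g 1 0 := by
      have := congrArg (fun x : GL (Fin 2) k => x 1 0) hmul
      simp only [e, u00, u10] at this
      linear_combination this
    have e11 : g' 1 0 * g 0 1 + g' 1 1 * g 1 1 = g 1 0 * t₀ + g 1 1 := by
      have := congrArg (fun x : GL (Fin 2) k => x 1 1) hmul
      simp only [e, u01, u11] at this
      linear_combination this
    rw [hcon, zero_mul, zero_add] at e10 e11
    have h1 : g' 1 1 = 1 := by
      have : (g' 1 1 - 1) * g 1 0 = 0 := by linear_combination e10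
      rcases mul_eq_zero.1 this with h | h
      · exact sub_eq_zero.1 h
      · exact absurd h hg10
    rw [h1, one_mul] at e11
    have : g 1 0 * t₀ = 0 := by linear_combination -e11
    rcases mul_eq_zero.1 this with h | h
    · exact hg10 h
    · exact ht₀ h

end Fermat.Agent.TW.GrpH1.NormAux
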