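/-
Programme TW (S56), brick D3 (helper21): the vanishing theorem `H¹(Γ, ad⁰ ⊗ det) = 0` in
normalized position.

`Γ` is a finite subgroup of `GL₂(k)`, `char k = p` odd, and `P ≤ Γ` is a nontrivial subgroup of
upper triangular elements of `p`-power order whose index in `Γ` is prime to `p` (a Sylow
`p`-subgroup fixing `∞`).  Assume that `Γ` does not fix `∞`, that every determinant of `Γ` is the
determinant of an upper triangular element of `Γ` (Frattini), that some `det² ≠ 1` if `p = 5`, and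
the torus bound `TorusBound k` (Theorem C of helper69: a finite subgroup `G` of `SL₂(k)` not
fixing `∞` whose group `A` of upper unipotent parameters has more than `3` elements has at least
`(|A| - 1)/2` distinct ratios `g 0 0 / g 1 1` on its upper triangular elements).  Then every trace
zero cocycle of `Γ` for `act` is a coboundary (`vanish_normalized`).  Mathlib only.
-/
import Fermat.Agent.TW.GrpH1.NormAux

namespace Fermat.Agent.TW.GrpH1.Normalized

open Matrix Matrix.GeneralLinearGroup Fermat.Agent.TW.GrpH1.Unip Fermat.Agent.TW.GrpH1.NormAux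

variable {k : Type*} [Field k]

/-- The torus bound (Theorem C). -/
def TorusBound (k : Type*) [Field k] : Prop :=
  ∀ (G : Subgroup (GL (Fin 2) k)), Finite G → (∀ g ∈ G, g.val.det = 1) →
    (∃ g ∈ G, g 1 0 ≠ 0) →
    ∀ (A : AddSubgroup k), (∀ x, x ∈ A ↔ upperRightHom x ∈ G) → 3 < Nat.card A →
      ∃ W : Finset k, (∀ w ∈ W, ∃ g ∈ G, g 1 0 = 0 ∧ w = g 0 0 / g 1 1) ∧
        Nat.card A ≤ 2 * W.card + 1

theorem vanish_normalized (p : ℕ) [Fact p.Prime] [CharP k p] (hp2 : p ≠ 2)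
    (Γ : Subgroup (GL (Fin 2) k)) [Finite Γ]
    (c : GL (Fin 2) k → Matrix (Fin 2) (Fin 2) k) (hc : IsCocOn Γ c)
    (P : Subgroup (GL (Fin 2) k)) (hPΓ : P ≤ Γ) (hPne : P ≠ ⊥)
    (hPup : ∀ g ∈ P, g 1 0 = 0) (hPp : ∀ g ∈ P, ∃ n : ℕ, g ^ (p ^ n) = 1)
    (hPidx : ¬ p ∣ P.relIndex Γ)
    (hFrat : ∀ g ∈ Γ, ∃ b ∈ Γ, b 1 0 = 0 ∧ b.val.det = g.val.det)
    (hirr : ∃ g ∈ Γ, g 1 0 ≠ 0)
    (h5 : p = 5 → ∃ g ∈ Γ, g.val.det ^ 2 ≠ 1)
    (hT : TorusBound k) : IsCobOn (Γ : Set (GL (Fin 2) k)) c := by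
  classical
  have h2 : (2 : k) ≠ 0 := two_ne_zero' p hp2
  have hp := (Fact.out : p.Prime)
  have hp3le : 3 ≤ p := by
    have := hp.two_le
    omega
  set V := unipParam Γ with hV_def
  have hV : ∀ t, t ∈ V ↔ upperRightHom t ∈ Γ := fun t => Iff.rfl
  -- `P` consists of upper unipotents
  have hPV : P ≤ unipSub V := by
    intro g hg
    obtain ⟨n, hn⟩ := hPp g hg
    have h := eq_upper_of_pow p g (hPup g hg) n hn
    refine ⟨g 0 1, ?_, h⟩
    show upperRightHom (g 0 1) ∈ Γ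
    rw [← h]
    exact hPΓ hg
  -- a nontrivial unipotent
  obtain ⟨t₀, ht₀V, ht₀⟩ : ∃ t₀ ∈ V, t₀ ≠ 0 := by
    obtain ⟨g, hg, hg1⟩ := (P.bot_or_exists_ne_one).resolve_left hPne
    obtain ⟨t, ht, rfl⟩ := hPV hg
    refine ⟨t, ht, fun h0 => hg1 ?_⟩
    rw [h0, AddChar.map_zero_eq_one]
  have hfinV : Finite V :=
    Finite.of_injective (fun t : V => (⟨upperRightHom t.1, t.2⟩ : Γ)) (by
      intro s t h
      exact Subtype.ext (injective_upperRightHom (congrArg Subtype.val h)))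
  have hZ : Nat.card (AddSubgroup.zmultiples t₀) = p := by
    rw [Nat.card_zmultiples]
    exact addOrderOf_eq_prime (by rw [nsmul_eq_mul, CharP.cast_eq_zero, zero_mul]) ht₀
  have hZV : AddSubgroup.zmultiples t₀ ≤ V := (AddSubgroup.zmultiples_le_of_mem ht₀V)
  have hpdvd : p ∣ Nat.card V := by
    rw [← hZ]
    exact AddSubgroup.card_dvd_of_le hZV
  have hVpos : 0 < Nat.card V := Nat.card_pos
  have hpq : p ≤ Nat.card V := Nat.le_of_dvd hVpos hpdvd
  have hZeq : Nat.card V = p → ∀ s ∈ V, ∃ n : ℤ, s = n • t₀ := by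
    intro hq s hs
    have : AddSubgroup.zmultiples t₀ = V :=
      AddSubgroup.eq_of_le_of_card_ge hZV (by rw [hZ, hq])
    rw [← this] at hs
    obtain ⟨n, hn⟩ := AddSubgroup.mem_zmultiples_iff.1 hs
    exact ⟨n, hn.symm⟩
  -- the torus
  have hTor : 3 < Nat.card V → ∃ W : Finset k,
      (∀ w ∈ W, ∃ b ∈ Γ, b 1 0 = 0 ∧ b.val.det = 1 ∧ w = b 0 0 / b 1 1) ∧
        Nat.card V ≤ 2 * W.card + 1 := by
    intro h3
    have hfin : Finite (sl Γ) :=
      Finite.of_injective (Subgroup.inclusion (sl_le Γ)) (Subgroup.inclusion_injective _)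
    obtain ⟨W, hW, hcard⟩ := hT (sl Γ) hfin (fun g hg => hg.2)
      (sl_moves Γ hirr t₀ ht₀ ht₀V) V
      (fun x => ⟨fun hx => ⟨hx, det_upper x⟩, fun hx => hx.1⟩) h3
    refine ⟨W, fun w hw => ?_, hcard⟩
    obtain ⟨g, hg, h1, h2⟩ := hW w hw
    exact ⟨g, hg.1, h1, hg.2, h2⟩
  -- the `γ`-hypothesis
  have hγ : p = 3 ∨ ∃ b ∈ Γ, b 1 0 = 0 ∧ (b 1 1) ^ 3 ≠ b 0 0 := by
    by_cases hp3 : p = 3
    · exact Or.inl hp3
    right
    have hp5 : 5 ≤ p := by
      rcases Nat.lt_or_ge p 5 with hlt | hge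
      · exfalso
        interval_cases p
        · exact hp3 rfl
        · exact absurd hp (by decide)
      · exact hge
    obtain ⟨W, hW, hcard⟩ := hTor (by omega)
    by_cases hW3 : 3 ≤ W.card
    · have hex : ∃ w ∈ W, w ^ 2 ≠ 1 := by
        by_contra hcon
        have hcon' : ∀ w ∈ W, w ^ 2 = 1 := fun w hw =>
          by_contra fun h => hcon ⟨w, hw, h⟩
        have hsub : W ⊆ {1, -1} := by
          intro w hw
          have h1 := hcon' w hw
          have h2 : (w - 1) * (w + 1) = 0 := by linear_combination h1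
          rcases mul_eq_zero.1 h2 with h | h
          · rw [sub_eq_zero.1 h]; simp
          · rw [eq_neg_of_add_eq_zero_left h]; simp
        have h3 := Finset.card_le_card hsub
        have h4 : ({1, -1} : Finset k).card ≤ 2 := Finset.card_le_two
        omega
      obtain ⟨w, hw, hw2⟩ := hex
      obtain ⟨b, hb, hb10, hbdet, rfl⟩ := hW w hw
      refine ⟨b, hb, hb10, fun hcon => hw2 ?_⟩
      have hαδ : b 0 0 * b 1 1 = 1 := by
        rw [Matrix.det_fin_two, hb10, mul_zero, sub_zero] at hbdet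
        exact hbdet
      have hδ : b 1 1 ≠ 0 := right_ne_zero_of_mul_eq_one hαδ
      rw [div_pow, div_eq_one_iff_eq (pow_ne_zero 2 hδ)]
      calc (b 0 0) ^ 2 = b 0 0 * b 0 0 := sq _
        _ = b 0 0 * (b 1 1) ^ 3 := by rw [hcon]
        _ = (b 0 0 * b 1 1) * (b 1 1) ^ 2 := by ring
        _ = (b 1 1) ^ 2 := by rw [hαδ, one_mul]
    · have hq5 : Nat.card V = 5 := by omega
      have hp5' : p = 5 := by omega
      have hcyc := hZeq (by rw [hq5, hp5'])
      obtain ⟨g, hg, hgdet⟩ := h5 hp5'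
      obtain ⟨b, hb, hb10, hbdet⟩ := hFrat g hg
      refine ⟨b, hb, hb10, fun hcon => hgdet ?_⟩
      rw [← hbdet]
      have hdet : b.val.det = b 0 0 * b 1 1 := by
        rw [Matrix.det_fin_two, hb10, mul_zero, sub_zero]
      have hdne : b.val.det ≠ 0 := Matrix.GeneralLinearGroup.det_ne_zero b
      have hδ : b 1 1 ≠ 0 := by
        rw [hdet] at hdne
        exact right_ne_zero_of_mul hdne
      have hω : b 0 0 * t₀ / b 1 1 ∈ V := by
        show upperRightHom _ ∈ Γ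
        have h' : upperRightHom (b 0 0 * t₀ / b 1 1) = b * upperRightHom t₀ * b⁻¹ := by
          rw [upper_conj b hb10 t₀, mul_inv_cancel_right]
        rw [h']
        exact Γ.mul_mem (Γ.mul_mem hb ht₀V) (Γ.inv_mem hb)
      obtain ⟨n, hn⟩ := hcyc _ hω
      have hω2 : (b 1 1) ^ 2 = (n : k) := by
        rw [← hcon, zsmul_eq_mul, div_eq_iff hδ] at hn
        have h3 : (b 1 1) * ((b 1 1) ^ 2 * t₀) = (b 1 1) * ((n : k) * t₀) := by
          linear_combination hn
        exact mul_right_cancel₀ ht₀ (mul_left_cancel₀ hδ h3)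
      have hfrob : ((n : k)) ^ p = (n : k) := by
        have := map_intCast (frobenius k p) n
        rwa [frobenius_def] at this
      rw [hp5', ← hω2] at hfrob
      have h8 : (b 1 1) ^ 8 = 1 := by
        have h3 : (b 1 1) ^ 2 * ((b 1 1) ^ 8 - 1) = 0 := by linear_combination hfrob
        rcases mul_eq_zero.1 h3 with h | h
        · exact absurd (pow_eq_zero_iff (by norm_num) |>.1 h) hδ
        · exact sub_eq_zero.1 h
      rw [hdet, ← hcon]
      linear_combination h8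
  -- the linearity hypothesis
  have hlin : (∃ v₀ ∈ V, v₀ ≠ 0 ∧ ∀ s ∈ V, ∃ n : ℤ, s = n • v₀) ∨
      (Finite V ∧ ∃ W : Finset k,
        (∀ w ∈ W, ∃ b ∈ Γ, b 1 0 = 0 ∧ b.val.det = 1 ∧ w = b 0 0 / b 1 1) ∧
        Nat.card V ≤ 2 * W.card + 1) := by
    by_cases hcyc : ∀ s ∈ V, ∃ n : ℤ, s = n • t₀
    · exact Or.inl ⟨t₀, ht₀V, ht₀, hcyc⟩
    right
    refine ⟨hfinV, hTor ?_⟩
    obtain ⟨j, hj⟩ := hpdvd
    have hj1 : j ≠ 1 := by
      intro h1
      exact hcyc (hZeq (by rw [hj, h1, mul_one]))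
    have hj0 : j ≠ 0 := by
      intro h0
      rw [h0, mul_zero] at hj
      omega
    have hj2 : 2 ≤ j := by omega
    calc 3 < 3 * 2 := by norm_num
      _ ≤ p * j := Nat.mul_le_mul hp3le hj2
      _ = Nat.card V := hj.symm
  obtain ⟨m₁, -, hm₁⟩ := unip_coboundary p hp2 Γ c hc V hV hγ hlin
  -- the index of the unipotent subgroup is prime to `p`
  have hVΓ : unipSub V ≤ Γ := by
    rintro _ ⟨t, ht, rfl⟩
    exact ht
  have hidx : ¬ p ∣ (unipSub V).relIndex Γ := fun h =>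
    hPidx (dvd_trans h (Subgroup.relIndex_dvd_of_le_left Γ hPV))
  let π : ↥Γ →* (Matrix (Fin 2) (Fin 2) k →ₗ[k] Matrix (Fin 2) (Fin 2) k) :=
    actHom.comp Γ.subtype
  have hcoc : Cocycle.IsCoc π (fun g : Γ => c g) := fun g h => hc.1 g g.2 h h.2
  have hidx' : ((((unipSub V).subgroupOf Γ).index : ℕ) : k) ≠ 0 := by
    rw [Ne, CharP.cast_eq_zero_iff k p]
    exact hidx
  obtain ⟨m, hm⟩ := Cocycle.coboundary_of_subgroup π ((unipSub V).subgroupOf Γ) hidx' _ hcoc
    ⟨m₁, fun h hh => by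
      obtain ⟨t, ht, hht⟩ := Subgroup.mem_subgroupOf.1 hh
      show c h = act h m₁ - m₁
      rw [hht]
      exact hm₁ t ht⟩
  exact cob_trace_fix h2 _ c (fun g hg => hc.2 g hg) m (fun g hg => hm ⟨g, hg⟩)

end Fermat.Agent.TW.GrpH1.Normalized
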