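/-
Programme TW (S56), brick D3 (helper21): the vanishing theorem `H¹(Γ, ad⁰ ⊗ det) = 0` for an
arbitrary subgroup `Γ` of `GL₂(k)`, `k` a finite field of odd characteristic `p`, such that `Γ`
fixes no line of `k²` and (if `p = 5`) some `det² ≠ 1`  (`vanish_subgroup`).

Ingredients: `Normalized.vanish_normalized` (normalized position), helper69's
`SylowNormal69.exists_normal_form` (Sylow + Frattini + conjugation) and
`DicksonField69.torus_card_ge` (the Dickson-type count), transfer of cocycles under conjugation,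
and the averaging argument when `p ∤ |Γ|`.
-/
import Fermat.Agent.TW.GrpH1.Normalized
import Fermat.Agent.TW.SylowNormal69
import Fermat.Agent.TW.DicksonField69

namespace Fermat.Agent.TW.GrpH1.Main

open Matrix Matrix.GeneralLinearGroup Fermat.Agent.TW.GrpH1.Unip Fermat.Agent.TW.GrpH1.NormAux
  Fermat.Agent.TW.GrpH1.Normalized

variable {k : Type*} [Field k]

/-- The torus bound holds (helper69's Theorem C). -/
theorem torusBound (p : ℕ) [Fact p.Prime] [CharP k p] (hp2 : p ≠ 2) : TorusBound k := by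
  intro G hfin hdet hmove A hA hA3
  classical
  have hfinW : Set.Finite {w : k | ∃ g ∈ G, g 1 0 = 0 ∧ w = g 0 0 / g 1 1} := by
    refine Set.Finite.subset (Set.finite_range (fun g : G => g.1 0 0 / g.1 1 1)) ?_
    rintro w ⟨g, hg, -, rfl⟩
    exact ⟨⟨g, hg⟩, rfl⟩
  have hmem : ∀ w, w ∈ hfinW.toFinset ↔ ∃ g ∈ G, g 1 0 = 0 ∧ w = g 0 0 / g 1 1 := by
    intro w
    rw [Set.Finite.mem_toFinset]
    exact Iff.rfl
  refine ⟨hfinW.toFinset, fun w hw => (hmem w).1 hw, ?_⟩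
  have := Fermat.Agent.TW.DicksonField69.torus_card_ge p hp2 G hdet hmove A hA hA3
    hfinW.toFinset hmem
  omega

/-- the conjugate subgroup `h Γ h⁻¹` -/
abbrev conjSub (h : GL (Fin 2) k) (Γ : Subgroup (GL (Fin 2) k)) : Subgroup (GL (Fin 2) k) :=
  Γ.map (MulAut.conj h).toMonoidHom

lemma mem_conjSub (h : GL (Fin 2) k) (Γ : Subgroup (GL (Fin 2) k)) (g' : GL (Fin 2) k) :
    g' ∈ conjSub h Γ ↔ ∃ g ∈ Γ, h * g * h⁻¹ = g' := by
  rw [Subgroup.mem_map]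
  rfl

/-- the transported cocycle -/
def conjCoc (h : GL (Fin 2) k) (c : GL (Fin 2) k → Matrix (Fin 2) (Fin 2) k) :
    GL (Fin 2) k → Matrix (Fin 2) (Fin 2) k :=
  fun g' => act h (c (h⁻¹ * g' * h))

lemma conjCoc_conj (h : GL (Fin 2) k) (c : GL (Fin 2) k → Matrix (Fin 2) (Fin 2) k)
    (g : GL (Fin 2) k) : conjCoc h c (h * g * h⁻¹) = act h (c g) := by
  rw [conjCoc]
  congr 2
  group

lemma conj_cocycle (h : GL (Fin 2) k) (Γ : Subgroup (GL (Fin 2) k))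
    (c : GL (Fin 2) k → Matrix (Fin 2) (Fin 2) k) (hc : IsCocOn Γ c) :
    IsCocOn (conjSub h Γ) (conjCoc h c) := by
  refine ⟨?_, ?_⟩
  · intro g₁' hg₁ g₂' hg₂
    obtain ⟨g₁, hg₁Γ, rfl⟩ := (mem_conjSub h Γ g₁').1 hg₁
    obtain ⟨g₂, hg₂Γ, rfl⟩ := (mem_conjSub h Γ g₂').1 hg₂
    have e : h * g₁ * h⁻¹ * (h * g₂ * h⁻¹) = h * (g₁ * g₂) * h⁻¹ := by group
    rw [e, conjCoc_conj, conjCoc_conj, conjCoc_conj, hc.1 g₁ hg₁Γ g₂ hg₂Γ, act_add,
      ← act_mul, ← act_mul]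
    congr 2
    group
  · intro g' hg
    obtain ⟨g, hgΓ, rfl⟩ := (mem_conjSub h Γ g').1 hg
    rw [conjCoc_conj, trace_act, hc.2 g hgΓ, mul_zero]

lemma conj_cob (h : GL (Fin 2) k) (Γ : Subgroup (GL (Fin 2) k))
    (c : GL (Fin 2) k → Matrix (Fin 2) (Fin 2) k)
    (hcob : IsCobOn (conjSub h Γ : Set (GL (Fin 2) k)) (conjCoc h c)) :
    IsCobOn (Γ : Set (GL (Fin 2) k)) c := by
  obtain ⟨m', hm'tr, hm'⟩ := hcob
  refine ⟨act h⁻¹ m', by rw [trace_act, hm'tr, mul_zero], ?_⟩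
  intro g hg
  have hmem : h * g * h⁻¹ ∈ conjSub h Γ := (mem_conjSub h Γ _).2 ⟨g, hg, rfl⟩
  have h1 := hm' _ hmem
  rw [conjCoc_conj] at h1
  have h2 : c g = act h⁻¹ (act h (c g)) := by
    rw [← act_mul, inv_mul_cancel, act_one]
  rw [h2, h1, act_sub, ← act_mul, ← act_mul]
  congr 2
  group

/-- no stable line ⇒ after conjugation, some element does not fix `∞` -/
lemma conj_moves (h : GL (Fin 2) k) (Γ : Subgroup (GL (Fin 2) k))
    (hirr : ∀ v : Fin 2 → k, v ≠ 0 → ∃ g ∈ Γ, ∀ a : k, g.val *ᵥ v ≠ a • v) :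
    ∃ g' ∈ conjSub h Γ, g' 1 0 ≠ 0 := by
  set e₀ : Fin 2 → k := ![1, 0] with he₀
  set v : Fin 2 → k := (h⁻¹).val *ᵥ e₀ with hv
  have hhv : h.val *ᵥ v = e₀ := by
    rw [hv, Matrix.mulVec_mulVec, ← Units.val_mul, mul_inv_cancel, Units.val_one,
      Matrix.one_mulVec]
  have hv0 : v ≠ 0 := by
    intro h0
    rw [h0, Matrix.mulVec_zero] at hhv
    have := congrFun hhv 0
    simp [he₀] at this
  obtain ⟨g, hg, hga⟩ := hirr v hv0
  refine ⟨h * g * h⁻¹, (mem_conjSub h Γ _).2 ⟨g, hg, rfl⟩, ?_⟩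
  intro h10
  apply hga ((h * g * h⁻¹) 0 0)
  -- `(h g h⁻¹) e₀ = a e₀`
  have h1 : (h * g * h⁻¹).val *ᵥ e₀ = ((h * g * h⁻¹) 0 0) • e₀ := by
    ext i
    fin_cases i
    · simp [he₀, Matrix.mulVec, dotProduct, Fin.sum_univ_two]
    · simp only [he₀, Matrix.mulVec, dotProduct, Fin.sum_univ_two, Fin.mk_one, Fin.isValue,
        Matrix.cons_val_zero, Matrix.cons_val_one, mul_one, mul_zero, add_zero, Pi.smul_apply,
        smul_eq_mul]
      exact h10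
  have h2 : (h * g * h⁻¹).val *ᵥ e₀ = h.val *ᵥ (g.val *ᵥ v) := by
    rw [hv, Matrix.mulVec_mulVec, Matrix.mulVec_mulVec, ← Units.val_mul, ← Units.val_mul]
  rw [h2] at h1
  have h3 : (h⁻¹).val *ᵥ (h.val *ᵥ (g.val *ᵥ v)) = g.val *ᵥ v := by
    rw [Matrix.mulVec_mulVec, ← Units.val_mul, inv_mul_cancel, Units.val_one, Matrix.one_mulVec]
  rw [← h3, h1, Matrix.mulVec_smul]

/-- **`H¹(Γ, ad⁰ ⊗ det) = 0`** for a subgroup `Γ` of `GL₂(k)`, `k` finite of odd characteristic `p`,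
fixing no line of `k²`, with some `det² ≠ 1` when `p = 5`. -/
theorem vanish_subgroup [Finite k] (p : ℕ) [Fact p.Prime] [CharP k p] (hp2 : p ≠ 2)
    (Γ : Subgroup (GL (Fin 2) k))
    (c : GL (Fin 2) k → Matrix (Fin 2) (Fin 2) k) (hc : IsCocOn Γ c)
    (hirr : ∀ v : Fin 2 → k, v ≠ 0 → ∃ g ∈ Γ, ∀ a : k, g.val *ᵥ v ≠ a • v)
    (h5 : p = 5 → ∃ g ∈ Γ, g.val.det ^ 2 ≠ 1) : IsCobOn (Γ : Set (GL (Fin 2) k)) c := by
  classical
  have h2 : (2 : k) ≠ 0 := two_ne_zero' p hp2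
  have hfinGL : Finite (GL (Fin 2) k) := inferInstance
  by_cases hpd : p ∣ Nat.card Γ
  · obtain ⟨h, P, hPΓ, hPne, hPup, hPp, hPidx, hFrat⟩ :=
      Fermat.Agent.TW.SylowNormal69.exists_normal_form p Γ hpd
    have h5' : p = 5 → ∃ g' ∈ conjSub h Γ, g'.val.det ^ 2 ≠ 1 := by
      intro hp5
      obtain ⟨g, hg, hdet⟩ := h5 hp5
      refine ⟨h * g * h⁻¹, (mem_conjSub h Γ _).2 ⟨g, hg, rfl⟩, ?_⟩
      have : (h * g * h⁻¹).val.det = g.val.det := by
        rw [Units.val_mul, Units.val_mul, Matrix.det_mul, Matrix.det_mul, mul_right_comm,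
          ← Matrix.det_mul, ← Units.val_mul, mul_inv_cancel, Units.val_one, Matrix.det_one,
          one_mul]
      rwa [this]
    have hfin' : Finite (conjSub h Γ) := inferInstance
    exact conj_cob h Γ c (vanish_normalized p hp2 (conjSub h Γ) (conjCoc h c)
      (conj_cocycle h Γ c hc) P hPΓ hPne hPup hPp hPidx hFrat (conj_moves h Γ hirr) h5'
      (torusBound p hp2))
  · let π : ↥Γ →* (Matrix (Fin 2) (Fin 2) k →ₗ[k] Matrix (Fin 2) (Fin 2) k) :=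
      actHom.comp Γ.subtype
    have hcard : ((Nat.card Γ : ℕ) : k) ≠ 0 := by
      rw [Ne, CharP.cast_eq_zero_iff k p]
      exact hpd
    obtain ⟨m, hm⟩ := Cocycle.coboundary_of_card π hcard (fun g : Γ => c g)
      (fun g h => hc.1 g g.2 h h.2)
    exact cob_trace_fix h2 _ c (fun g hg => hc.2 g hg) m (fun g hg => hm ⟨g, hg⟩)

end Fermat.Agent.TW.GrpH1.Main
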