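/-
Programme TW (S56), brick D3 (helper21): the vanishing theorem `H¹(Γ, ad⁰ ⊗ det) = 0` for an
abstract group `Γ` with a representation `ρ : Γ →* GL₂(k)` (`k` finite of odd characteristic) whose
kernel is central:

* `vanish_abstract` : elementary hypotheses (no stable line over `k`, no nonzero invariant of
  `ad⁰ ⊗ det`);
* `adjVanishing_of_hyp` : the shape consumed by helper24's `Final24.exists_sel`, with the hypotheses
  `AdIrr24.Hyp (bc K ρ)` over an extension `K/k`.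
* `adjVanishing_quotient` : `hD3` of `Final24.exists_sel` discharged.
-/
import Fermat.Agent.TW.GrpH1.Main
import Fermat.Agent.TW.Final24

namespace Fermat.Agent.TW.GrpH1.Wrap

open Matrix Matrix.GeneralLinearGroup Fermat.Agent.TW.GrpH1.Unip

variable {k : Type*} [Field k]

/-- **`H¹(Γ, ad⁰ ⊗ det) = 0`** for an abstract group with central kernel. -/
theorem vanish_abstract [Finite k] (p : ℕ) [Fact p.Prime] [CharP k p] (hp2 : p ≠ 2)
    {Γ : Type*} [Group Γ] (ρ : Γ →* GL (Fin 2) k)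
    (hker : ∀ z, ρ z = 1 → ∀ g, g * z = z * g)
    (hinv : ∀ X : Matrix (Fin 2) (Fin 2) k, X.trace = 0 →
      (∀ g, (ρ g).val * X * (ρ g).val.adjugate = X) → X = 0)
    (hirr : ∀ v : Fin 2 → k, v ≠ 0 → ∃ g, ∀ a : k, (ρ g).val *ᵥ v ≠ a • v)
    (h5 : p = 5 → ∃ g, (ρ g).val.det ^ 2 ≠ 1)
    (ψ : Γ → Matrix (Fin 2) (Fin 2) k) (htr : ∀ g, (ψ g).trace = 0)
    (hcoc : ∀ g h, ψ (g * h) = ψ g + (ρ g).val * ψ h * (ρ g).val.adjugate) :
    ∃ X : Matrix (Fin 2) (Fin 2) k, X.trace = 0 ∧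
      ∀ g, ψ g = (ρ g).val * X * (ρ g).val.adjugate - X := by
  classical
  -- `ψ` vanishes on `ker ρ`
  have hψker : ∀ z, ρ z = 1 → ψ z = 0 := by
    intro z hz
    apply hinv _ (htr z)
    intro g
    have h1 := hcoc g z
    have h2 := hcoc z g
    rw [hz, Units.val_one, Matrix.adjugate_one, one_mul, mul_one] at h2
    rw [hker z hz g, h2] at h1
    have h3 : ψ g + ψ z = ψ g + (ρ g).val * ψ z * (ρ g).val.adjugate := by
      rw [add_comm]
      exact h1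
    exact (add_left_cancel h3).symm
  -- `ψ` factors through `ρ`
  have hfac : ∀ a b, ρ a = ρ b → ψ a = ψ b := by
    intro a b hab
    have hz : ρ (a⁻¹ * b) = 1 := by rw [map_mul, map_inv, hab, inv_mul_cancel]
    have hb : b = a * (a⁻¹ * b) := by group
    rw [hb, hcoc, hψker _ hz, mul_zero, zero_mul, add_zero]
  let c : GL (Fin 2) k → Matrix (Fin 2) (Fin 2) k := fun g =>
    if h : ∃ a, ρ a = g then ψ h.choose else 0
  have hcρ : ∀ a, c (ρ a) = ψ a := by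
    intro a
    have h : ∃ a', ρ a' = ρ a := ⟨a, rfl⟩
    simp only [c, dif_pos h]
    exact hfac _ _ h.choose_spec
  have hc : IsCocOn ρ.range c := by
    refine ⟨?_, ?_⟩
    · rintro _ ⟨a, rfl⟩ _ ⟨b, rfl⟩
      rw [← map_mul, hcρ, hcρ, hcρ, hcoc]
      rfl
    · rintro _ ⟨a, rfl⟩
      rw [hcρ]
      exact htr a
  have hirr' : ∀ v : Fin 2 → k, v ≠ 0 → ∃ g ∈ ρ.range, ∀ a : k, g.val *ᵥ v ≠ a • v := by
    intro v hv
    obtain ⟨g, hg⟩ := hirr v hv
    exact ⟨ρ g, ⟨g, rfl⟩, hg⟩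
  have h5' : p = 5 → ∃ g ∈ ρ.range, g.val.det ^ 2 ≠ 1 := by
    intro hp5
    obtain ⟨g, hg⟩ := h5 hp5
    exact ⟨ρ g, ⟨g, rfl⟩, hg⟩
  obtain ⟨m, hmtr, hm⟩ := Main.vanish_subgroup p hp2 ρ.range c hc hirr' h5'
  refine ⟨m, hmtr, fun g => ?_⟩
  rw [← hcρ, hm _ ⟨g, rfl⟩]
  rfl

open Fermat.Agent.TW.AdIrr24 Fermat.Agent.TW.AdIrrBC24 Fermat.Agent.TW.Final24 in
/-- **Brick D3 in the shape of `Final24.AdjVanishing`**: `k` finite of odd characteristic `p`,
`ρ : Γ →* GL₂(k)` with central kernel satisfying `AdIrr24.Hyp` over an extension `K` of `k`, and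
some `det² ≠ 1` if `p = 5`. -/
theorem adjVanishing_of_hyp [Finite k] (p : ℕ) [Fact p.Prime] [CharP k p] (hp2 : p ≠ 2)
    {Γ : Type*} [Group Γ] (ρ : Γ →* GL (Fin 2) k) (hker : ρ.ker ≤ Subgroup.center Γ)
    (K : Type*) [Field K] [Algebra k K] (hyp : Hyp (bc K ρ))
    (h5 : p = 5 → ∃ g, (ρ g).val.det ^ 2 ≠ 1) : AdjVanishing ρ := by
  intro ψ htr hcoc
  refine vanish_abstract p hp2 ρ ?_ ?_ ?_ h5 ψ htr hcoc
  · intro z hz g
    have hzc := hker (MonoidHom.mem_ker.2 hz)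
    rw [Subgroup.mem_center_iff] at hzc
    exact hzc g
  · intro X hX hXinv
    exact eq_zero_of_adjugate_invariant_bc hyp X hX hXinv
  · intro v hv
    by_contra hcon
    apply hyp.habs
    refine ⟨fun i => algebraMap k K (v i), ?_, fun g _ => ?_⟩
    · intro h0
      apply hv
      ext i
      have hi := congrFun h0 i
      simp only [Pi.zero_apply] at hi
      exact (map_eq_zero (algebraMap k K)).1 hi
    · have hex : ∃ a : k, (ρ g).val *ᵥ v = a • v := by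
        by_contra h
        exact hcon ⟨g, fun a ha => h ⟨a, ha⟩⟩
      obtain ⟨a, ha⟩ := hex
      refine ⟨algebraMap k K a, ?_⟩
      rw [bc_val]
      ext i
      have hi := congrFun ha i
      simp only [Matrix.mulVec, dotProduct, Fin.sum_univ_two, Pi.smul_apply, smul_eq_mul] at hi ⊢
      rw [mbc_apply, mbc_apply, ← map_mul, ← map_mul, ← map_add, hi, map_mul]

open Fermat.Agent.TW.AdIrr24 Fermat.Agent.TW.AdIrrBC24 Fermat.Agent.TW.Final24 in
/-- `hD3` of `Final24.exists_sel`, discharged: for any group `G`, `ρ : G →* GL₂(k)` with `Hyp` over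
`K`, `C` normal with `G/C` abelian, the quotient `G ⧸ (C ⊓ ker ρ)` satisfies `AdjVanishing`. -/
theorem adjVanishing_quotient [Finite k] (p : ℕ) [Fact p.Prime] [CharP k p] (hp2 : p ≠ 2)
    {G : Type*} [Group G] (ρ : G →* GL (Fin 2) k)
    (K : Type*) [Field K] [Algebra k K] (hyp : Hyp (bc K ρ))
    (C : Subgroup G) [C.Normal] (hC : commutator G ≤ C)
    (h5 : p = 5 → ∃ g, (ρ g).val.det ^ 2 ≠ 1) :
    AdjVanishing (QuotientGroup.lift (C ⊓ ρ.ker) ρ inf_le_right) := by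
  refine adjVanishing_of_hyp p hp2 _ (Select24.ker_lift_le_center ρ C hC) K
    (hyp_bc_quotient hyp (C ⊓ ρ.ker) inf_le_right) ?_
  intro hp5
  obtain ⟨g, hg⟩ := h5 hp5
  refine ⟨(g : G ⧸ (C ⊓ ρ.ker)), ?_⟩
  rw [QuotientGroup.lift_mk]
  exact hg

open Fermat.Agent.TW.AdIrr24 Fermat.Agent.TW.AdIrrBC24 Fermat.Agent.TW.Final24 in
/-- **GT-final, unconditional**: `Final24.exists_sel` with `hD3` discharged.  `k` finite of odd
characteristic `p`, `ρ : G →* GL₂(k)` (any group `G`) with `Hyp` over `K ⊇ k`, `C` normal with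
`G/C` abelian and `det ρ = 1` on `C`, some `det² ≠ 1` if `p = 5`: a traceless adjugate-twisted
cocycle which is not a coboundary is not a coboundary at some `s ∈ C` with `discr (ρ s) ≠ 0`. -/
theorem exists_sel_final [Finite k] (p : ℕ) [Fact p.Prime] [CharP k p] (hp2 : p ≠ 2)
    {G : Type*} [Group G] (ρ : G →* GL (Fin 2) k)
    (K : Type*) [Field K] [Algebra k K] (hyp : Hyp (bc K ρ))
    (C : Subgroup G) [C.Normal] (hC : commutator G ≤ C)
    (hdetC : ∀ g ∈ C, (ρ g : Matrix (Fin 2) (Fin 2) k).det = 1)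
    (h5 : p = 5 → ∃ g, (ρ g).val.det ^ 2 ≠ 1)
    (ψ : G → Matrix (Fin 2) (Fin 2) k) (htr : ∀ g, (ψ g).trace = 0)
    (hcoc : ∀ g h, ψ (g * h) = ψ g + (ρ g : Matrix (Fin 2) (Fin 2) k) * ψ h
      * (ρ g : Matrix (Fin 2) (Fin 2) k).adjugate)
    (hncob : ¬ ∃ X : Matrix (Fin 2) (Fin 2) k, X.trace = 0 ∧
      ∀ g, ψ g = (ρ g : Matrix (Fin 2) (Fin 2) k) * X
        * (ρ g : Matrix (Fin 2) (Fin 2) k).adjugate - X) :
    ∃ s ∈ C, (ρ s : Matrix (Fin 2) (Fin 2) k).discr ≠ 0 ∧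
      ¬ ∃ X : Matrix (Fin 2) (Fin 2) k, X.trace = 0 ∧
        ψ s = (ρ s : Matrix (Fin 2) (Fin 2) k) * X
          * (ρ s : Matrix (Fin 2) (Fin 2) k).adjugate - X :=
  exists_sel K hyp C hC hdetC ψ htr hcoc hncob (adjVanishing_quotient p hp2 ρ K hyp C hC h5)

end Fermat.Agent.TW.GrpH1.Wrap
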