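/-
Programme TW (S56), brick D3 (helper21): elementary finite counting lemmas for a finite group
acting on a finite set, in `Finset` form: double counting of fixed points, orbit-stabilizer,
conjugation invariance, sums over orbits, and divisibility of the cardinality of an invariant set
all of whose orbits have the same size.  Mathlib only.
-/
import Mathlib

namespace Fermat.Agent.TW.GrpH1.CountBasic

open Finset

variable {Γ Ω : Type*} [Group Γ] [MulAction Γ Ω]

/-- fixed points of `g` as a finset -/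
def fixF [Fintype Ω] [DecidableEq Ω] (g : Γ) : Finset Ω := univ.filter (fun x => g • x = x)

/-- stabilizer of `x` as a finset -/
def stabF {Ω : Type*} [DecidableEq Ω] (Γ : Type*) [Group Γ] [Fintype Γ] [MulAction Γ Ω] (x : Ω) :
    Finset Γ :=
  univ.filter (fun g : Γ => g • x = x)

/-- orbit of `x` as a finset -/
def orbF {Ω : Type*} [DecidableEq Ω] (Γ : Type*) [Group Γ] [Fintype Γ] [MulAction Γ Ω] (x : Ω) :
    Finset Ω :=
  univ.image (fun g : Γ => g • x)

@[simp] lemma mem_fixF [Fintype Ω] [DecidableEq Ω] {g : Γ} {x : Ω} : x ∈ fixF g ↔ g • x = x := by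
  simp [fixF]

@[simp] lemma mem_stabF [Fintype Γ] [DecidableEq Ω] {g : Γ} {x : Ω} : g ∈ stabF Γ x ↔ g • x = x := by
  simp [stabF]

@[simp] lemma mem_orbF [Fintype Γ] [DecidableEq Ω] {x y : Ω} : y ∈ orbF Γ x ↔ ∃ g : Γ, g • x = y := by
  simp [orbF]

lemma self_mem_orbF [Fintype Γ] [DecidableEq Ω] (x : Ω) : x ∈ orbF Γ x := mem_orbF.2 ⟨1, one_smul _ _⟩

lemma smul_mem_orbF [Fintype Γ] [DecidableEq Ω] (g : Γ) (x : Ω) : g • x ∈ orbF Γ x := mem_orbF.2 ⟨g, rfl⟩

/-- double counting of the pairs `(g, x)` with `g • x = x` -/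
lemma sum_fix_eq_sum_stab [Fintype Γ] [Fintype Ω] [DecidableEq Ω] :
    ∑ g : Γ, (fixF (Ω := Ω) g).card = ∑ x : Ω, (stabF Γ x).card := by
  simp only [fixF, stabF, Finset.card_filter]
  exact Finset.sum_comm

/-- orbit-stabilizer in finset form -/
lemma card_orbF_mul_card_stabF [Fintype Γ] [DecidableEq Ω] (x : Ω) :
    (orbF Γ x).card * (stabF Γ x).card = Fintype.card Γ := by
  classical
  have h1 : (univ : Finset Γ).card
      = ∑ y ∈ orbF Γ x, ((univ : Finset Γ).filter (fun g => g • x = y)).card :=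
    Finset.card_eq_sum_card_fiberwise (fun g _ => smul_mem_orbF g x)
  have h2 : ∀ y ∈ orbF Γ x,
      ((univ : Finset Γ).filter (fun g => g • x = y)).card = (stabF Γ x).card := by
    intro y hy
    obtain ⟨g₀, rfl⟩ := mem_orbF.1 hy
    refine Finset.card_bij (fun g _ => g₀⁻¹ * g) ?_ ?_ ?_
    · intro g hg
      simp only [mem_filter, mem_univ, true_and] at hg
      rw [mem_stabF, mul_smul, hg, inv_smul_smul]
    · intro a _ b _ h
      exact mul_left_cancel h
    · intro b hb
      refine ⟨g₀ * b, ?_, by simp⟩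
      simp only [mem_filter, mem_univ, true_and]
      rw [mul_smul, mem_stabF.1 hb]
  rw [← Finset.card_univ, h1, Finset.sum_congr rfl h2, Finset.sum_const, smul_eq_mul]

/-- stabilizers of points in one orbit have the same size -/
lemma card_stabF_smul [Fintype Γ] [DecidableEq Ω] (h : Γ) (x : Ω) : (stabF Γ (h • x)).card = (stabF Γ x).card := by
  refine Finset.card_bij (fun g _ => h⁻¹ * g * h) ?_ ?_ ?_
  · intro g hg
    have hg' := mem_stabF.1 hg
    simp only [mem_stabF, mul_smul, hg', inv_smul_smul]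
  · intro a _ b _ hab
    simpa using hab
  · intro b hb
    refine ⟨h * b * h⁻¹, ?_, by group⟩
    simp only [mem_stabF, mul_smul, inv_smul_smul, mem_stabF.1 hb]

/-- fixed point sets of conjugate elements have the same size -/
lemma card_fixF_conj [Fintype Ω] [DecidableEq Ω] (h g : Γ) :
    (fixF (Ω := Ω) (h * g * h⁻¹)).card = (fixF (Ω := Ω) g).card := by
  refine Finset.card_bij (fun x _ => h⁻¹ • x) ?_ ?_ ?_
  · intro x hx
    have hx' := mem_fixF.1 hx
    rw [mem_fixF]
    have : g • h⁻¹ • x = h⁻¹ • ((h * g * h⁻¹) • x) := by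
      simp only [mul_smul, inv_smul_smul]
    rw [this, hx']
  · intro a _ b _ hab
    exact (smul_left_cancel_iff h⁻¹).1 hab
  · intro y hy
    refine ⟨h • y, ?_, by simp⟩
    simp only [mem_fixF, mul_smul, inv_smul_smul, mem_fixF.1 hy]

lemma orbF_eq_of_mem [Fintype Γ] [DecidableEq Ω] {x y : Ω} (hy : y ∈ orbF Γ x) : orbF Γ y = orbF Γ x := by
  obtain ⟨g, rfl⟩ := mem_orbF.1 hy
  ext w
  simp only [mem_orbF]
  constructor
  · rintro ⟨h, rfl⟩
    exact ⟨h * g, mul_smul _ _ _⟩
  · rintro ⟨h, rfl⟩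
    exact ⟨h * g⁻¹, by simp [mul_smul]⟩

lemma disjoint_orbF [Fintype Γ] [DecidableEq Ω] {x y : Ω} (hy : y ∉ orbF Γ x) : Disjoint (orbF Γ x) (orbF Γ y) := by
  rw [Finset.disjoint_left]
  intro w hwx hwy
  apply hy
  have h1 := orbF_eq_of_mem hwx
  have h2 := orbF_eq_of_mem hwy
  rw [← h1, h2]
  exact self_mem_orbF y

/-- sum over an orbit of a function which is constant on that orbit -/
lemma sum_orbF [Fintype Γ] [DecidableEq Ω] {M : Type*} [AddCommMonoid M] (x : Ω) (f : Ω → M)
    (hf : ∀ g : Γ, f (g • x) = f x) : ∑ y ∈ orbF Γ x, f y = (orbF Γ x).card • f x := by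
  rw [← Finset.sum_const]
  refine Finset.sum_congr rfl ?_
  intro y hy
  obtain ⟨g, rfl⟩ := mem_orbF.1 hy
  exact hf g

/-- If `T` is an invariant finite set all of whose orbits have exactly `q` elements, then `q`
divides the cardinality of `T`. -/
lemma dvd_card_of_orbits [Fintype Γ] [DecidableEq Ω] (q : ℕ) :
    ∀ (n : ℕ) (T : Finset Ω), T.card = n → (∀ (g : Γ) (x : Ω), x ∈ T → g • x ∈ T) →
      (∀ x ∈ T, (orbF Γ x).card = q) → q ∣ T.card := by
  intro n
  induction n using Nat.strong_induction_on with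
  | _ n ih =>
    intro T hTn hT horb
    rcases T.eq_empty_or_nonempty with rfl | ⟨x, hx⟩
    · simp
    · have hsub : orbF Γ x ⊆ T := by
        intro y hy
        obtain ⟨g, rfl⟩ := mem_orbF.1 hy
        exact hT g x hx
      have hcard : (T \ orbF Γ x).card + (orbF Γ x).card = T.card :=
        Finset.card_sdiff_add_card_eq_card hsub
      have hpos : 0 < (orbF Γ x).card := Finset.card_pos.2 ⟨x, self_mem_orbF x⟩
      have hlt : (T \ orbF Γ x).card < n := by omega
      have hT' : ∀ (g : Γ) (y : Ω), y ∈ T \ orbF Γ x → g • y ∈ T \ orbF Γ x := by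
        intro g y hy
        rw [Finset.mem_sdiff] at hy ⊢
        refine ⟨hT g y hy.1, fun hgy => hy.2 ?_⟩
        obtain ⟨h, hh⟩ := mem_orbF.1 hgy
        refine mem_orbF.2 ⟨g⁻¹ * h, ?_⟩
        rw [mul_smul, hh, inv_smul_smul]
      have horb' : ∀ y ∈ T \ orbF Γ x, (orbF Γ y).card = q := fun y hy =>
        horb y (Finset.mem_sdiff.1 hy).1
      have := ih _ hlt (T \ orbF Γ x) rfl hT' horb'
      rw [← hcard, horb x hx]
      exact (Nat.dvd_add_right this).2 (dvd_refl q)

end Fermat.Agent.TW.GrpH1.CountBasic
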