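/-
Programme TW (S56), brick D3 (helper21): the Klein-Dickson fixed point count.

A finite group `Γ` acts on a finite set `Ω` such that every element outside the kernel `K` of the
action fixes exactly one or two points.  Let `x₀` be a point, `U` the subgroup of its stabilizer
consisting of `K` and of the elements with exactly one fixed point ("parabolic" elements), with
`|U| = |K| q`, `q ≥ 3`, `|Stab x₀| = |K| q t`.  If every parabolic element fixes a point of the
orbit of `x₀` and `x₀` is not fixed by `Γ`, then `q - 1 ≤ 2 t`.  Mathlib only.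
-/
import Fermat.Agent.TW.GrpH1.CountBasic

namespace Fermat.Agent.TW.GrpH1.Count

open Finset Fermat.Agent.TW.GrpH1.CountBasic

/-- the final arithmetic step -/
lemma arith_final (r m e t N O : ℕ) (hN : N = 1 + m * (r + 2))
    (hO : N * (r + 2) + 2 = 2 * N + O) (hOe : O * e = N * (r + 2) * t) (ht : 0 < t)
    (hm : 1 ≤ m) : r + 1 ≤ 2 * t := by
  have hOval : O = (r + 2) * (1 + m * r) := by
    subst hN
    have : (1 + m * (r + 2)) * (r + 2) + 2 = 2 * (1 + m * (r + 2)) + (r + 2) * (1 + m * r) := by
      ring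
    omega
  have h1 : (1 + m * r) * e = (1 + m * r) * t + 2 * m * t := by
    have h2 : (r + 2) * ((1 + m * r) * e) = (r + 2) * ((1 + m * r) * t + 2 * m * t) := by
      calc (r + 2) * ((1 + m * r) * e) = O * e := by rw [hOval]; ring
        _ = N * (r + 2) * t := hOe
        _ = (r + 2) * ((1 + m * r) * t + 2 * m * t) := by rw [hN]; ring
    exact Nat.eq_of_mul_eq_mul_left (by omega) h2
  have hdvd : (1 + m * r) ∣ 2 * m * t := by
    have h3 : (1 + m * r) ∣ (1 + m * r) * t + 2 * m * t := ⟨e, h1.symm⟩
    exact (Nat.dvd_add_right (dvd_mul_right _ _)).1 h3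
  have hcop : Nat.Coprime (1 + m * r) m := by
    have : Nat.Coprime (1 + r * m) m := (Nat.coprime_add_mul_right_left 1 m r).2
      (Nat.coprime_one_left m)
    rwa [mul_comm r m] at this
  have hdvd2 : (1 + m * r) ∣ 2 * t := by
    have h4 : (1 + m * r) ∣ m * (2 * t) := by
      have : 2 * m * t = m * (2 * t) := by ring
      rwa [this] at hdvd
    exact hcop.dvd_of_dvd_mul_left h4
  have hle := Nat.le_of_dvd (by omega) hdvd2
  have : r ≤ m * r := Nat.le_mul_of_pos_left r hm
  omega

section core

variable {Γ Ω : Type*} [Group Γ] [Fintype Γ] [Fintype Ω] [DecidableEq Ω] [MulAction Γ Ω]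

omit [Fintype Ω] in
/-- cardinality of the stabilizer finset as `Nat.card` of the stabilizer subgroup -/
lemma natCard_stabilizer (x : Ω) : Nat.card (MulAction.stabilizer Γ x) = (stabF Γ x).card :=
  Nat.subtype_card (stabF Γ x) (fun g => by rw [mem_stabF, MulAction.mem_stabilizer_iff])

end core

section main

variable {Γ Ω : Type*} [Group Γ] [Fintype Γ] [Fintype Ω] [DecidableEq Ω] [MulAction Γ Ω]

/-- **Klein-Dickson count** (finset form). -/
theorem count_core (K U : Subgroup Γ) [DecidablePred (· ∈ K)] (x₀ : Ω)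
    (hK : ∀ g : Γ, g ∈ K ↔ ∀ x : Ω, g • x = x)
    (hfix : ∀ g : Γ, g ∉ K → (fixF (Ω := Ω) g).card = 1 ∨ (fixF (Ω := Ω) g).card = 2)
    (hU : ∀ g : Γ, g ∈ U ↔ g ∈ K ∨ (g • x₀ = x₀ ∧ (fixF (Ω := Ω) g).card = 1))
    (hpar : ∀ g : Γ, g ∉ K → (fixF (Ω := Ω) g).card = 1 → ∃ h : Γ, g • (h • x₀) = h • x₀)
    (hmove : ∃ g : Γ, g • x₀ ≠ x₀)
    (r t : ℕ) (hq : Nat.card U = Nat.card K * (r + 2))
    (ht : (stabF Γ x₀).card = Nat.card K * (r + 2) * t) : r + 1 ≤ 2 * t := by
  classical
  -- notation
  set z := Nat.card K with hz_def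
  have hz : 0 < z := Nat.card_pos
  set X := orbF Γ x₀ with hX_def
  set N := X.card with hN_def
  set KF : Finset Γ := univ.filter (· ∈ K) with hKF_def
  have hKFcard : KF.card = z := by
    rw [hz_def, ← Nat.subtype_card KF (p := fun g => g ∈ K) (fun g => by simp [hKF_def])]
  have hKle : ∀ x : Ω, KF ⊆ stabF Γ x := by
    intro x g hg
    rw [hKF_def, mem_filter] at hg
    exact mem_stabF.2 ((hK g).1 hg.2 x)
  have hKU : K ≤ U := fun g hg => (hU g).2 (Or.inl hg)
  have hUstab : ∀ g ∈ U, g • x₀ = x₀ := by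
    intro g hg
    rcases (hU g).1 hg with h | h
    · exact (hK g).1 h x₀
    · exact h.1
  have hKconj : ∀ (h g : Γ), g ∈ K → h * g * h⁻¹ ∈ K := by
    intro h g hg
    rw [hK] at hg ⊢
    intro x
    rw [mul_smul, mul_smul, hg, smul_inv_smul]
  have hKconj' : ∀ (h g : Γ), h * g * h⁻¹ ∈ K → g ∈ K := by
    intro h g hg
    have := hKconj h⁻¹ _ hg
    simpa [mul_assoc] using this
  -- stabilizer cardinalities are multiples of `z`
  have hzdvd : ∀ x : Ω, z ∣ (stabF Γ x).card := by
    intro x
    rw [← natCard_stabilizer x]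
    exact Subgroup.card_dvd_of_le (fun g hg => MulAction.mem_stabilizer_iff.2 ((hK g).1 hg x))
  have hzle : ∀ x : Ω, z ≤ (stabF Γ x).card := by
    intro x
    rw [← hKFcard]
    exact Finset.card_le_card (hKle x)
  -- `t` is positive
  have htpos : 0 < t := by
    rcases Nat.eq_zero_or_pos t with h0 | h0
    · exfalso
      have h1 : 0 < (stabF Γ x₀).card := Finset.card_pos.2 ⟨1, mem_stabF.2 (one_smul _ _)⟩
      rw [ht, h0, mul_zero] at h1
      exact lt_irrefl _ h1
    · exact h0
  -- orbit stabilizer at `x₀`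
  have hE1 : N * (z * (r + 2) * t) = Fintype.card Γ := by
    rw [← ht]
    exact card_orbF_mul_card_stabF x₀
  -- `N ≥ 2`
  have hN2 : 2 ≤ N := by
    obtain ⟨g, hg⟩ := hmove
    have : 1 < X.card := Finset.one_lt_card.2
      ⟨g • x₀, smul_mem_orbF g x₀, x₀, self_mem_orbF x₀, hg⟩
    exact this
  -- sum over group elements
  set NK : Finset Γ := univ.filter (fun g => g ∉ K) with hNK_def
  have hNKcard : NK.card + z = Fintype.card Γ := by
    rw [← hKFcard, add_comm, hKF_def, hNK_def, ← Finset.card_univ (α := Γ)]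
    exact Finset.card_filter_add_card_filter_not (s := (univ : Finset Γ)) (fun g => g ∈ K)
  set F := ∑ g ∈ NK, (fixF (Ω := Ω) g).card with hF_def
  have hS2 : ∑ g : Γ, (fixF (Ω := Ω) g).card = z * Fintype.card Ω + F := by
    rw [← Finset.sum_filter_add_sum_filter_not (univ : Finset Γ) (fun g => g ∈ K)]
    congr 1
    rw [← hKFcard, ← smul_eq_mul, ← Finset.sum_const]
    refine Finset.sum_congr rfl ?_
    intro g hg
    rw [mem_filter] at hg
    have : fixF (Ω := Ω) g = univ := by
      ext x
      simp only [mem_fixF, mem_univ, iff_true]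
      exact (hK g).1 hg.2 x
    rw [this, Finset.card_univ]
  set PS : Finset Γ := NK.filter (fun g => (fixF (Ω := Ω) g).card = 1) with hPS_def
  have hF : F + PS.card = 2 * NK.card := by
    rw [hF_def, hPS_def, Finset.card_filter, ← Finset.sum_add_distrib, mul_comm,
      ← smul_eq_mul, ← Finset.sum_const]
    refine Finset.sum_congr rfl ?_
    intro g hg
    rw [hNK_def, mem_filter] at hg
    rcases hfix g hg.2 with h | h
    · rw [h]; simp
    · rw [h]; simp
  -- the parabolic elements
  set UF : Finset Γ := univ.filter (· ∈ U) with hUF_def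
  have hUFcard : UF.card = z * (r + 2) := by
    rw [← hq, ← Nat.subtype_card UF (p := fun g => g ∈ U) (fun g => by simp [hUF_def])]
  have hPSx₀ : (PS.filter (fun g => g • x₀ = x₀)).card + z = z * (r + 2) := by
    rw [← hUFcard, ← hKFcard]
    have hsub : KF ⊆ UF := by
      intro g hg
      rw [hKF_def, mem_filter] at hg
      rw [hUF_def, mem_filter]
      exact ⟨mem_univ _, hKU hg.2⟩
    have heq : PS.filter (fun g => g • x₀ = x₀) = UF \ KF := by
      ext g
      simp only [hPS_def, hNK_def, hUF_def, hKF_def, mem_filter, mem_univ, true_and, mem_sdiff]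
      rw [hU g]
      constructor
      · rintro ⟨⟨h1, h2⟩, h3⟩
        exact ⟨Or.inr ⟨h3, h2⟩, h1⟩
      · rintro ⟨h1 | h1, h2⟩
        · exact absurd h1 h2
        · exact ⟨⟨h2, h1.2⟩, h1.1⟩
    rw [heq]
    exact Finset.card_sdiff_add_card_eq_card hsub
  have hPSx : ∀ x ∈ X, (PS.filter (fun g => g • x = x)).card + z = z * (r + 2) := by
    intro x hx
    obtain ⟨h, rfl⟩ := mem_orbF.1 hx
    rw [← hPSx₀]
    congr 1
    refine Finset.card_bij (fun g _ => h⁻¹ * g * h) ?_ ?_ ?_
    · intro g hg
      simp only [hPS_def, hNK_def, mem_filter, mem_univ, true_and] at hg ⊢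
      obtain ⟨⟨hg1, hg2⟩, hg3⟩ := hg
      refine ⟨⟨fun hc => hg1 ?_, ?_⟩, ?_⟩
      · have := hKconj h _ hc
        simpa [mul_assoc] using this
      · have := card_fixF_conj (Ω := Ω) h⁻¹ g
        rw [inv_inv] at this
        rw [this, hg2]
      · rw [mul_smul, mul_smul, hg3, inv_smul_smul]
    · intro a _ b _ hab
      simpa using hab
    · intro b hb
      simp only [hPS_def, hNK_def, mem_filter, mem_univ, true_and] at hb ⊢
      obtain ⟨⟨hb1, hb2⟩, hb3⟩ := hb
      refine ⟨h * b * h⁻¹, ⟨⟨fun hc => hb1 (hKconj' h b hc), ?_⟩, ?_⟩, by group⟩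
      · rw [card_fixF_conj, hb2]
      · rw [mul_smul, mul_smul, inv_smul_smul, hb3]
  have hPScard : PS.card + N * z = N * (z * (r + 2)) := by
    have h1 : PS.card = ∑ g ∈ PS, (X.filter (fun x => g • x = x)).card := by
      rw [Finset.card_eq_sum_ones]
      refine Finset.sum_congr rfl ?_
      intro g hg
      simp only [hPS_def, hNK_def, mem_filter, mem_univ, true_and] at hg
      obtain ⟨h, hh⟩ := hpar g hg.1 hg.2
      have hle : (X.filter (fun x => g • x = x)).card ≤ 1 := by
        rw [← hg.2]
        refine Finset.card_le_card ?_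
        intro x hx
        rw [mem_filter] at hx
        exact mem_fixF.2 hx.2
      have hpos : 0 < (X.filter (fun x => g • x = x)).card :=
        Finset.card_pos.2 ⟨h • x₀, mem_filter.2 ⟨smul_mem_orbF h x₀, hh⟩⟩
      omega
    have h2 : ∑ g ∈ PS, (X.filter (fun x => g • x = x)).card
        = ∑ x ∈ X, (PS.filter (fun g => g • x = x)).card := by
      simp only [Finset.card_filter]
      exact Finset.sum_comm
    have h3 : ∑ x ∈ X, ((PS.filter (fun g => g • x = x)).card + z) = ∑ _x ∈ X, z * (r + 2) :=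
      Finset.sum_congr rfl hPSx
    rw [Finset.sum_add_distrib, Finset.sum_const, Finset.sum_const, smul_eq_mul, smul_eq_mul,
      ← h2, ← h1] at h3
    exact h3
  -- sum over points
  set XC : Finset Ω := univ.filter (fun x => x ∉ X) with hXC_def
  have hXCcard : XC.card + N = Fintype.card Ω := by
    rw [hN_def, add_comm, ← Finset.card_univ (α := Ω)]
    have := Finset.card_filter_add_card_filter_not (s := (univ : Finset Ω)) (fun x => x ∈ X)
    rw [Finset.filter_mem_eq_inter, Finset.univ_inter] at this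
    exact this
  set W := ∑ x ∈ XC, ((stabF Γ x).card - z) with hW_def
  have hS1 : ∑ x : Ω, (stabF Γ x).card = Fintype.card Γ + (z * XC.card + W) := by
    rw [← Finset.sum_filter_add_sum_filter_not (univ : Finset Ω) (fun x => x ∈ X)]
    congr 1
    · rw [Finset.filter_mem_eq_inter, Finset.univ_inter,
        sum_orbF x₀ (fun x => (stabF Γ x).card) (fun g => card_stabF_smul g x₀), smul_eq_mul]
      exact card_orbF_mul_card_stabF x₀
    · rw [hW_def, mul_comm, ← smul_eq_mul, ← Finset.sum_const, ← Finset.sum_add_distrib]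
      refine Finset.sum_congr rfl ?_
      intro x _
      have := hzle x
      omega
  -- the key identity (★)
  have hstar : W + N * (z * (r + 2)) + 2 * z = 2 * (z * N) + Fintype.card Γ := by
    have h0 := sum_fix_eq_sum_stab (Γ := Γ) (Ω := Ω)
    rw [hS1, hS2] at h0
    have h1 : z * Fintype.card Ω = z * XC.card + z * N := by rw [← hXCcard, mul_add]
    have h2 : N * z = z * N := mul_comm _ _
    omega
  have hW_lt : W + z * N * r + 2 * z = Fintype.card Γ := by
    have : N * (z * (r + 2)) = z * N * r + 2 * (z * N) := by ring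
    omega
  -- a point outside `X` with a big stabilizer
  have hy : ∃ y ∈ XC, z < (stabF Γ y).card := by
    by_contra hcon0
    have hcon : ∀ y ∈ XC, (stabF Γ y).card ≤ z := fun y hy =>
      not_lt.1 (fun h => hcon0 ⟨y, hy, h⟩)
    have hW0 : W = 0 := by
      rw [hW_def]
      refine Finset.sum_eq_zero ?_
      intro x hx
      have := hcon x hx
      omega
    have h1 : N * (z * (r + 2)) ≤ Fintype.card Γ := by
      rw [← hE1]
      calc N * (z * (r + 2)) = N * (z * (r + 2) * 1) := by rw [mul_one]
        _ ≤ N * (z * (r + 2) * t) := by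
          exact Nat.mul_le_mul_left _ (Nat.mul_le_mul_left _ htpos)
    have h2 : z * 2 ≤ z * N := Nat.mul_le_mul_left _ hN2
    omega
  obtain ⟨y, hyXC, hybig⟩ := hy
  have hyX : y ∉ X := by
    rw [hXC_def, mem_filter] at hyXC
    exact hyXC.2
  have hOXC : orbF Γ y ⊆ XC := by
    intro x hx
    rw [hXC_def, mem_filter]
    refine ⟨mem_univ _, fun hxX => hyX ?_⟩
    have h1 := orbF_eq_of_mem hx
    have h2 := orbF_eq_of_mem hxX
    have : y ∈ orbF Γ x := by rw [h1]; exact self_mem_orbF y
    rw [h2] at this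
    exact this
  -- the sum over an orbit outside `X`
  have hsumO : ∀ w : Ω, w ∈ XC → z < (stabF Γ w).card →
      ∑ x ∈ orbF Γ w, ((stabF Γ x).card - z) + z * (orbF Γ w).card = Fintype.card Γ ∧
      Fintype.card Γ ≤ 2 * ∑ x ∈ orbF Γ w, ((stabF Γ x).card - z) := by
    intro w _ hwbig
    have h1 : ∑ x ∈ orbF Γ w, ((stabF Γ x).card - z)
        = (orbF Γ w).card * ((stabF Γ w).card - z) := by
      rw [sum_orbF w (fun x => (stabF Γ x).card - z)
        (fun g => by simp only [card_stabF_smul g w]), smul_eq_mul]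
    have h2 := card_orbF_mul_card_stabF (Γ := Γ) w
    obtain ⟨e, he⟩ := hzdvd w
    have he2 : 2 ≤ e := by
      by_contra hcon
      have hcon' : e < 2 := not_le.1 hcon
      interval_cases e
      · omega
      · omega
    rw [h1]
    have h3 : (orbF Γ w).card * ((stabF Γ w).card - z) + z * (orbF Γ w).card
        = (orbF Γ w).card * (stabF Γ w).card := by
      have := hzle w
      have h4 : (stabF Γ w).card - z + z = (stabF Γ w).card := by omega
      calc (orbF Γ w).card * ((stabF Γ w).card - z) + z * (orbF Γ w).card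
          = (orbF Γ w).card * ((stabF Γ w).card - z + z) := by ring
        _ = (orbF Γ w).card * (stabF Γ w).card := by rw [h4]
    refine ⟨by rw [h3, h2], ?_⟩
    rw [← h2, he]
    have h5 : z * e - z = z * (e - 1) := by
      rw [Nat.mul_sub, mul_one]
    rw [h5]
    have h6 : 2 * (e - 1) ≥ e := by omega
    calc (orbF Γ w).card * (z * e) = (orbF Γ w).card * z * e := by ring
      _ ≤ (orbF Γ w).card * z * (2 * (e - 1)) := Nat.mul_le_mul_left _ h6
      _ = 2 * ((orbF Γ w).card * (z * (e - 1))) := by ring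
  obtain ⟨hOsum, _⟩ := hsumO y hyXC hybig
  -- every other point outside `X` has stabilizer `K`
  have hrest : ∀ x ∈ XC, x ∉ orbF Γ y → (stabF Γ x).card = z := by
    intro x hxXC hxO
    by_contra hne
    have hxbig : z < (stabF Γ x).card := lt_of_le_of_ne (hzle x) (Ne.symm hne)
    obtain ⟨_, hO'2⟩ := hsumO x hxXC hxbig
    obtain ⟨_, hO2⟩ := hsumO y hyXC hybig
    have hdisj : Disjoint (orbF Γ y) (orbF Γ x) := disjoint_orbF hxO
    have hO'XC : orbF Γ x ⊆ XC := by
      intro w hw
      rw [hXC_def, mem_filter]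
      have hxX : x ∉ X := by
        rw [hXC_def, mem_filter] at hxXC
        exact hxXC.2
      refine ⟨mem_univ _, fun hwX => hxX ?_⟩
      have h1 := orbF_eq_of_mem hw
      have h2 := orbF_eq_of_mem hwX
      have : x ∈ orbF Γ w := by rw [h1]; exact self_mem_orbF x
      rw [h2] at this
      exact this
    have hle : ∑ w ∈ orbF Γ y ∪ orbF Γ x, ((stabF Γ w).card - z) ≤ W := by
      rw [hW_def]
      exact Finset.sum_le_sum_of_subset (Finset.union_subset hOXC hO'XC)
    rw [Finset.sum_union hdisj] at hle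
    generalize ∑ w ∈ orbF Γ y, ((stabF Γ w).card - z) = a at hle hO2
    generalize ∑ w ∈ orbF Γ x, ((stabF Γ w).card - z) = b at hle hO'2
    generalize z * N * r = c at hW_lt
    generalize Fintype.card Γ = G at hW_lt hO2 hO'2
    omega
  have hWO : W = ∑ x ∈ orbF Γ y, ((stabF Γ x).card - z) := by
    rw [hW_def, ← Finset.sum_sdiff hOXC]
    have : ∑ x ∈ XC \ orbF Γ y, ((stabF Γ x).card - z) = 0 := by
      refine Finset.sum_eq_zero ?_
      intro x hx
      rw [mem_sdiff] at hx
      rw [hrest x hx.1 hx.2, Nat.sub_self]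
    rw [this, zero_add]
  -- (★★)
  have hstar2 : N * (r + 2) + 2 = 2 * N + (orbF Γ y).card := by
    have h1 : W + z * (orbF Γ y).card = Fintype.card Γ := by rw [hWO]; exact hOsum
    have h2 : z * (N * (r + 2) + 2) = z * (2 * N + (orbF Γ y).card) := by
      have e1 : z * (N * (r + 2) + 2) = N * (z * (r + 2)) + 2 * z := by ring
      have e2 : z * (2 * N + (orbF Γ y).card) = 2 * (z * N) + z * (orbF Γ y).card := by ring
      omega
    exact Nat.eq_of_mul_eq_mul_left hz h2
  -- `N ≡ 1` modulo `q = r + 2`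
  have hNm : ∃ m : ℕ, N = 1 + m * (r + 2) := by
    let _ : Fintype U := Fintype.ofFinite U
    set T := X.erase x₀ with hT_def
    have hTinv : ∀ (u : U) (x : Ω), x ∈ T → u • x ∈ T := by
      intro u x hx
      rw [hT_def, mem_erase] at hx ⊢
      refine ⟨fun h => hx.1 ?_, ?_⟩
      · have h1 : (u : Γ) • x₀ = x₀ := hUstab u u.2
        have h2 : (u : Γ) • x = (u : Γ) • x₀ := by rw [h1]; exact h
        exact (smul_left_cancel_iff (u : Γ)).1 h2
      · obtain ⟨g, rfl⟩ := mem_orbF.1 hx.2
        exact mem_orbF.2 ⟨(u : Γ) * g, mul_smul _ _ _⟩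
    have hTorb : ∀ x ∈ T, (orbF U x).card = r + 2 := by
      intro x hx
      rw [hT_def, mem_erase] at hx
      have h1 := card_orbF_mul_card_stabF (Γ := U) x
      have h2 : (stabF U x).card = z := by
        rw [← hKFcard]
        refine Finset.card_bij (fun u _ => (u : Γ)) ?_ ?_ ?_
        · intro u hu
          have hu' : (u : Γ) • x = x := (mem_stabF (Γ := U)).1 hu
          rw [hKF_def, mem_filter]
          refine ⟨mem_univ _, ?_⟩
          rcases (hU u).1 u.2 with h | h
          · exact h
          · exfalso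
            have hx₀ : x₀ ∈ fixF (Ω := Ω) (u : Γ) := mem_fixF.2 h.1
            have hxf : x ∈ fixF (Ω := Ω) (u : Γ) := mem_fixF.2 hu'
            obtain ⟨a, ha⟩ := Finset.card_eq_one.1 h.2
            rw [ha, mem_singleton] at hx₀ hxf
            exact hx.1 (hxf.trans hx₀.symm)
        · intro a _ b _ hab
          exact Subtype.ext hab
        · intro g hg
          rw [hKF_def, mem_filter] at hg
          exact ⟨⟨g, hKU hg.2⟩, mem_stabF.2 ((hK g).1 hg.2 x), rfl⟩
      rw [h2] at h1
      have h3 : Fintype.card U = z * (r + 2) := by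
        rw [← hq, Nat.card_eq_fintype_card]
      rw [h3, mul_comm] at h1
      exact Nat.eq_of_mul_eq_mul_left hz h1
    have hdvd := dvd_card_of_orbits (Γ := U) (r + 2) T.card T rfl hTinv hTorb
    obtain ⟨m, hm⟩ := hdvd
    refine ⟨m, ?_⟩
    have : T.card + 1 = N := by
      rw [hT_def, hN_def]
      exact Finset.card_erase_add_one (self_mem_orbF x₀)
    rw [← this, hm]
    ring
  obtain ⟨m, hm⟩ := hNm
  have hm1 : 1 ≤ m := by
    rcases Nat.eq_zero_or_pos m with h | h
    · rw [h] at hm; omega
    · exact h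
  -- the orbit `O` and its stabilizer
  obtain ⟨e, he⟩ := hzdvd y
  have hOe : (orbF Γ y).card * e = N * (r + 2) * t := by
    have h1 := card_orbF_mul_card_stabF (Γ := Γ) y
    rw [he, ← hE1] at h1
    have h2 : z * ((orbF Γ y).card * e) = z * (N * (r + 2) * t) := by
      calc z * ((orbF Γ y).card * e) = (orbF Γ y).card * (z * e) := by ring
        _ = N * (z * (r + 2) * t) := h1
        _ = z * (N * (r + 2) * t) := by ring
    exact Nat.eq_of_mul_eq_mul_left hz h2
  exact arith_final r m e t N (orbF Γ y).card hm hstar2 hOe htpos hm1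

end main

end Fermat.Agent.TW.GrpH1.Count
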