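/-
Programme TW (S56), brick D3 (helper21): elementary facts on the Möbius action of `GL (Fin 2) k`
on `OnePoint k` (Mathlib's `OnePoint.instGLAction`): stabilizer of `∞`, kernel of the action,
transitivity, and the number of fixed points of a non-scalar element having a fixed point
(one if the discriminant vanishes, two otherwise).  Mathlib only.
-/
import Fermat.Agent.TW.GrpH1.CountBasic

namespace Fermat.Agent.TW.GrpH1.Mobius

open OnePoint Matrix Finset Fermat.Agent.TW.GrpH1.CountBasic

/-- decidable equality on `OnePoint k` (which is `Option k`); used as a local instance -/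
@[reducible] def decEqOnePoint (k : Type*) [DecidableEq k] : DecidableEq (OnePoint k) :=
  inferInstanceAs (DecidableEq (Option k))

attribute [local instance] decEqOnePoint

variable {k : Type*} [Field k]

/-- entries of a product in `GL (Fin 2) k` -/
lemma mul_apply' (g h : GL (Fin 2) k) (i j : Fin 2) :
    (g * h : GL (Fin 2) k) i j = g i 0 * h 0 j + g i 1 * h 1 j := by
  rw [Matrix.GeneralLinearGroup.coe_mul, Matrix.mul_apply, Fin.sum_univ_two]

lemma one_apply' (i j : Fin 2) : (1 : GL (Fin 2) k) i j = if i = j then 1 else 0 := by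
  rw [Matrix.GeneralLinearGroup.coe_one, Matrix.one_apply]

lemma det_eq (g : GL (Fin 2) k) : g.val.det = g 0 0 * g 1 1 - g 0 1 * g 1 0 :=
  Matrix.det_fin_two _

lemma det_ne_zero' (g : GL (Fin 2) k) : g 0 0 * g 1 1 - g 0 1 * g 1 0 ≠ 0 := by
  rw [← det_eq]
  exact Matrix.GeneralLinearGroup.det_ne_zero g

lemma diag_ne_zero_of_upper (g : GL (Fin 2) k) (h : g 1 0 = 0) : g 0 0 ≠ 0 ∧ g 1 1 ≠ 0 := by
  have := det_ne_zero' g
  rw [h, mul_zero, sub_zero] at this
  exact ⟨left_ne_zero_of_mul this, right_ne_zero_of_mul this⟩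

variable [DecidableEq k]

lemma smul_coe_of_upper (g : GL (Fin 2) k) (h : g 1 0 = 0) (z : k) :
    g • (z : OnePoint k) = (((g 0 0 * z + g 0 1) / g 1 1 : k) : OnePoint k) := by
  rw [OnePoint.smul_some_eq_ite, h, zero_mul, zero_add, if_neg (diag_ne_zero_of_upper g h).2]

/-- `g` is a scalar matrix -/
def IsScalar (g : GL (Fin 2) k) : Prop := g 0 1 = 0 ∧ g 1 0 = 0 ∧ g 0 0 = g 1 1

lemma isScalar_iff_forall_smul (g : GL (Fin 2) k) :
    IsScalar g ↔ ∀ x : OnePoint k, g • x = x := by
  constructor
  · rintro ⟨h1, h2, h3⟩ x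
    cases x with
    | infty => exact OnePoint.smul_infty_eq_self_iff.2 h2
    | coe z =>
      rw [smul_coe_of_upper g h2, h1, add_zero, h3, mul_div_assoc, mul_comm,
        div_mul_cancel₀ _ (diag_ne_zero_of_upper g h2).2]
  · intro h
    have h2 : g 1 0 = 0 := OnePoint.smul_infty_eq_self_iff.1 (h ∞)
    have hd := (diag_ne_zero_of_upper g h2).2
    have h0 := h ((0 : k) : OnePoint k)
    rw [smul_coe_of_upper g h2, mul_zero, zero_add, OnePoint.coe_eq_coe,
      div_eq_zero_iff] at h0
    have h01 : g 0 1 = 0 := h0.resolve_right hd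
    have h1 := h ((1 : k) : OnePoint k)
    rw [smul_coe_of_upper g h2, mul_one, h01, add_zero, OnePoint.coe_eq_coe,
      div_eq_one_iff_eq hd] at h1
    exact ⟨h01, h2, h1⟩

/-- `GL (Fin 2) k` acts transitively on `OnePoint k` -/
lemma exists_smul_infty_eq (x : OnePoint k) : ∃ h : GL (Fin 2) k, h • (∞ : OnePoint k) = x := by
  cases x with
  | infty => exact ⟨1, one_smul _ _⟩
  | coe z =>
    have hdet : (!![z, 1; 1, 0] : Matrix (Fin 2) (Fin 2) k).det ≠ 0 := by
      rw [Matrix.det_fin_two_of]; norm_num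
    refine ⟨Matrix.GeneralLinearGroup.mkOfDetNeZero _ hdet, ?_⟩
    rw [OnePoint.smul_infty_eq_ite]
    simp [Matrix.GeneralLinearGroup.mkOfDetNeZero]

/-- the discriminant `(a - d)² + 4bc = tr² - 4 det` -/
def disc (g : GL (Fin 2) k) : k := (g 0 0 - g 1 1) ^ 2 + 4 * g 0 1 * g 1 0

omit [DecidableEq k] in
lemma disc_eq_trace_det (g : GL (Fin 2) k) : disc g = g.val.trace ^ 2 - 4 * g.val.det := by
  rw [disc, Matrix.trace_fin_two, Matrix.det_fin_two]
  ring

omit [DecidableEq k] in
lemma disc_conj (h g : GL (Fin 2) k) : disc (h * g * h⁻¹) = disc g := by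
  rw [disc_eq_trace_det, disc_eq_trace_det]
  have h1 : (h * g * h⁻¹ : GL (Fin 2) k).val = h.val * g.val * (h⁻¹ : GL (Fin 2) k).val := by
    simp
  rw [h1]
  have h2 : (h.val * g.val * (h⁻¹ : GL (Fin 2) k).val).trace = g.val.trace := by
    rw [Matrix.trace_mul_comm, ← mul_assoc]
    have : (h⁻¹ : GL (Fin 2) k).val * h.val = 1 := by
      rw [← Units.val_mul, inv_mul_cancel, Units.val_one]
    rw [this, one_mul]
  have h3 : (h.val * g.val * (h⁻¹ : GL (Fin 2) k).val).det = g.val.det := by
    rw [Matrix.det_mul, Matrix.det_mul, mul_comm, ← mul_assoc, ← Matrix.det_mul]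
    have : (h⁻¹ : GL (Fin 2) k).val * h.val = 1 := by
      rw [← Units.val_mul, inv_mul_cancel, Units.val_one]
    rw [this, Matrix.det_one, one_mul]
  rw [h2, h3]

lemma isScalar_conj (h g : GL (Fin 2) k) : IsScalar (h * g * h⁻¹) ↔ IsScalar g := by
  rw [isScalar_iff_forall_smul, isScalar_iff_forall_smul]
  constructor
  · intro hh x
    have := hh (h • x)
    rw [mul_smul, mul_smul, inv_smul_smul] at this
    exact (smul_left_cancel_iff h).1 this
  · intro hh x
    rw [mul_smul, mul_smul, hh, smul_inv_smul]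

section card

variable [Fintype k]

/-- number of fixed points of a non-scalar upper triangular element -/
lemma card_fixF_upper (g : GL (Fin 2) k) (hup : g 1 0 = 0) (hns : ¬ IsScalar g) :
    (fixF (Ω := OnePoint k) g).card = if g 0 0 = g 1 1 then 1 else 2 := by
  have hd := (diag_ne_zero_of_upper g hup).2
  have hfix : ∀ z : k, g • (z : OnePoint k) = z ↔ (g 0 0 - g 1 1) * z + g 0 1 = 0 := by
    intro z
    rw [smul_coe_of_upper g hup, OnePoint.coe_eq_coe, div_eq_iff hd]
    constructor
    · intro h; linear_combination h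
    · intro h; linear_combination h
  split_ifs with had
  · -- parabolic: only `∞`
    have hb : g 0 1 ≠ 0 := fun hb => hns ⟨hb, hup, had⟩
    have : fixF (Ω := OnePoint k) g = {∞} := by
      ext x
      rw [mem_fixF, Finset.mem_singleton]
      cases x with
      | infty => simp [OnePoint.smul_infty_eq_self_iff, hup]
      | coe z =>
        rw [hfix z, had, sub_self, zero_mul, zero_add]
        simp [hb]
    rw [this, Finset.card_singleton]
  · have hne : g 0 0 - g 1 1 ≠ 0 := sub_ne_zero.2 had
    have : fixF (Ω := OnePoint k) g = {∞, ((-(g 0 1) / (g 0 0 - g 1 1) : k) : OnePoint k)} := by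
      ext x
      rw [mem_fixF, Finset.mem_insert, Finset.mem_singleton]
      cases x with
      | infty => simp [OnePoint.smul_infty_eq_self_iff, hup]
      | coe z =>
        rw [hfix z, OnePoint.coe_eq_coe, eq_div_iff hne]
        constructor
        · intro h; right; linear_combination h
        · rintro (h | h)
          · exact absurd h (OnePoint.coe_ne_infty z)
          · linear_combination h
    rw [this, Finset.card_pair (OnePoint.infty_ne_coe _)]

/-- number of fixed points of a non-scalar element which has a fixed point -/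
lemma card_fixF_of_fixed (g : GL (Fin 2) k) (hns : ¬ IsScalar g) (x : OnePoint k)
    (hx : g • x = x) :
    (fixF (Ω := OnePoint k) g).card = if disc g = 0 then 1 else 2 := by
  obtain ⟨h, rfl⟩ := exists_smul_infty_eq x
  have hc := card_fixF_conj (Ω := OnePoint k) h⁻¹ g
  rw [inv_inv] at hc
  have hd := disc_conj h⁻¹ g
  rw [inv_inv] at hd
  have hs := isScalar_conj h⁻¹ g
  rw [inv_inv] at hs
  have hup : (h⁻¹ * g * h : GL (Fin 2) k) 1 0 = 0 := by
    rw [← OnePoint.smul_infty_eq_self_iff, mul_smul, mul_smul, hx, inv_smul_smul]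
  rw [← hc, ← hd, card_fixF_upper _ hup (fun hh => hns (hs.1 hh))]
  have : disc (h⁻¹ * g * h) = ((h⁻¹ * g * h : GL (Fin 2) k) 0 0 - (h⁻¹ * g * h : GL (Fin 2) k) 1 1) ^ 2 := by
    rw [disc, hup, mul_zero, add_zero]
  rw [this]
  by_cases hh : (h⁻¹ * g * h : GL (Fin 2) k) 0 0 = (h⁻¹ * g * h : GL (Fin 2) k) 1 1
  · rw [if_pos hh, if_pos (by rw [hh, sub_self]; ring)]
  · rw [if_neg hh, if_neg (pow_ne_zero 2 (sub_ne_zero.2 hh))]

end card

end Fermat.Agent.TW.GrpH1.Mobius
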